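import Fermat.Agent.LT.Rigidity.Approx
import Fermat.Agent.LT.Whittaker.Law
import Fermat.Agent.LT.Galois

/-!
# A cusp form is determined by its Whittaker function on the diagonal

`a ↦ whit φ (dia a)` determines `φ`; the Whittaker function of a Galois translate is the
translate of the Whittaker function.
-/

set_option autoImplicit false

noncomputable section

open NumberField (InfinitePlace)
open scoped ComplexConjugate

namespace Fermat.Agent.LT.Rigidity

open Whittaker

variable {F : Type*} [Field F] [NumberField F] {U : Level F}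

/-- The coset of `dia a`. -/
def diaCoset (U : Level F) (a : (FinAdele F)ˣ) : GLFin F ⧸ U.toSubgroup :=
  QuotientGroup.mk (dia a)

variable (F) in
/-- Principal ideles. -/
def globalIdele : Fˣ →* (FinAdele F)ˣ :=
  Units.map (finIncl F).toMonoidHom

theorem dia_smul_diaCoset (U : Level F) (ξ : Fˣ) (a : (FinAdele F)ˣ) :
    glIncl F (dia ξ) • diaCoset U a = diaCoset U (globalIdele F ξ * a) := by
  show (QuotientGroup.mk (glIncl F (dia ξ) * dia a) : GLFin F ⧸ U.toSubgroup) = _
  rw [glIncl_dia, ← dia_mul]
  rfl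

/-- Automorphic functions agree if they agree over the diagonal cosets. -/
theorem eq_of_eq_on_dia {φ ψ : Y U → ℂ} (hφ : IsAutomorphic φ) (hψ : IsAutomorphic ψ)
    (h : ∀ P a, φ (P, diaCoset U a) = ψ (P, diaCoset U a)) : φ = ψ := by
  funext y
  obtain ⟨γ, a, ha⟩ := exists_dia_repr U y.2
  have hy : y = γ • ((γ⁻¹ • y).1, diaCoset U a) := by
    refine Prod.ext ?_ ?_
    · funext w
      rw [smul_fst, smul_fst, map_inv, smul_inv_smul]
    · rw [smul_snd]
      exact ha
  rw [hy, hφ, hψ, h]

omit [NumberField F] in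
/-- Every archimedean point has coordinates. -/
theorem exists_ptAt (P : InfinitePlace F → H3) :
    ∃ (z : InfinitePlace F → ℂ) (t : InfinitePlace F → ℝ), (∀ w, 0 < t w) ∧ P = ptAt z t :=
  ⟨fun w => H3.zc (P w), fun w => H3.tc (P w), fun w => H3.tc_pos (P w),
    funext fun w => (H3.pt_coord (P w)).symm⟩

open Classical in
/-- The horizontal coordinates of a Galois translate. -/
def galZ (σ : F ≃+* F) (z : InfinitePlace F → ℂ) (w : InfinitePlace F) : ℂ :=
  if w.embedding.comp (σ : F →+* F) = (w.comap (σ : F →+* F)).embedding then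
    z (w.comap (σ : F →+* F))
  else conj (z (w.comap (σ : F →+* F)))

omit [NumberField F] in
/-- The Galois action on points given by coordinates. -/
theorem galInf_ptAt (σ : F ≃+* F) (z : InfinitePlace F → ℂ) {t : InfinitePlace F → ℝ}
    (ht : ∀ w, 0 < t w) :
    galInf σ (ptAt z t) = ptAt (galZ σ z) fun w => t (w.comap (σ : F →+* F)) := by
  funext w
  simp only [galInf, galZ, ptAt]
  split_ifs with hc
  · rfl
  · refine H3.ext ?_
    show Matrix.transpose ((H3.pt (z _) (t _)).mat) = _
    rw [H3.mat_pt _ (ht _), H3.mat_pt _ (ht _), Complex.normSq_conj]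
    ext i j
    fin_cases i <;> fin_cases j <;> simp

omit [NumberField F] in
/-- An automorphism permutes the infinite places. -/
theorem comap_bijective (σ : F ≃+* F) :
    Function.Bijective fun w : InfinitePlace F => w.comap (σ : F →+* F) := by
  refine ⟨fun w w' h => ?_, fun w => ⟨w.comap (σ.symm : F →+* F), ?_⟩⟩
  · ext x
    have := DFunLike.congr_fun h (σ.symm x)
    simpa using this
  · ext x
    simp

theorem expChar_galois (σ : F ≃+* F) (η : F) (z : InfinitePlace F → ℂ) :
    expChar (σ η) (galZ σ z) = expChar η z := by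
  have hpair : pairing (σ η) (galZ σ z) = pairing η z := by
    unfold pairing
    rw [← (comap_bijective σ).sum_comp (fun w => 2 * (w.embedding η * z w).re)]
    refine Finset.sum_congr rfl fun w _ => ?_
    unfold galZ
    split_ifs with hc
    · rw [show w.embedding (σ η) = (w.comap (σ : F →+* F)).embedding η from
        DFunLike.congr_fun hc η]
    · rw [show w.embedding (σ η) = conj ((w.comap (σ : F →+* F)).embedding η) from
        DFunLike.congr_fun (embedding_comap_of_ne σ w hc) η, ← map_mul, Complex.conj_re]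
  rw [expChar, expChar, hpair]

theorem bessel_galois (σ : F ≃+* F) (η : F) (t : InfinitePlace F → ℝ) :
    bessel (σ η) (fun w => t (w.comap (σ : F →+* F))) = bessel η t := by
  unfold bessel
  rw [← (comap_bijective σ).prod_comp (fun w => (w η * t w) * besselK (4 * Real.pi * (w η * t w)))]
  exact Finset.prod_congr rfl fun w _ => rfl

variable [NumberField.IsTotallyComplex F]

/-- The coefficients at a diagonal coset. -/
theorem coef_diaCoset {φ : Y U → ℂ} (hφ : IsCuspEigen φ) (a : (FinAdele F)ˣ) (ξ : Fˣ) :
    coef φ (diaCoset U a) (ξ : F) = whit φ (diaCoset U (globalIdele F ξ * a)) := by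
  rw [coef_eq_whit hφ, dia_smul_diaCoset]

/-- Two cusp forms with the same Whittaker function on the diagonal are equal. -/
theorem eq_of_whit_dia {φ ψ : Y U → ℂ} (hφ : IsCuspEigen φ) (hψ : IsCuspEigen ψ)
    (h : ∀ a, whit φ (diaCoset U a) = whit ψ (diaCoset U a)) : φ = ψ := by
  refine eq_of_eq_on_dia hφ.automorphic hψ.automorphic fun P a => ?_
  obtain ⟨z, t, ht, rfl⟩ := exists_ptAt P
  have h1 := hasSum_whit hφ (diaCoset U a) z ht
  have h2 := hasSum_whit hψ (diaCoset U a) z ht
  refine h1.unique (h2.congr_fun fun ξ => ?_)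
  rw [dia_smul_diaCoset, h]

/-- A cusp form with vanishing Whittaker function on the diagonal is zero. -/
theorem eq_zero_of_whit_dia {φ : Y U → ℂ} (hφ : IsCuspEigen φ)
    (h : ∀ a, whit φ (diaCoset U a) = 0) : φ = 0 := by
  refine eq_of_eq_on_dia hφ.automorphic (fun _ _ => rfl) fun P a => ?_
  obtain ⟨z, t, ht, rfl⟩ := exists_ptAt P
  refine (hasSum_whit hφ (diaCoset U a) z ht).unique ?_
  have : ∀ ξ : Fˣ, whit φ (glIncl F (dia ξ) • diaCoset U a) = 0 := fun ξ => by
    rw [dia_smul_diaCoset, h]
  simp only [this, zero_mul, Pi.zero_apply]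
  exact hasSum_zero

variable (σ : F ≃+* F) (hU : ∀ g ∈ U.toSubgroup, glFinMap (σ : F →+* F) g ∈ U.toSubgroup)

/-- The expansion of a Galois translate. -/
theorem isExpansion_galY {φ : Y U → ℂ} (hφ : IsCuspEigen φ) (c : GLFin F ⧸ U.toSubgroup) :
    IsExpansion (fun y => φ (galY σ U hU y)) c
      (fun η => coef φ (galFin σ U hU c) (σ η)) := by
  refine ⟨by simp [(isExpansion_coef hφ _).1], fun z t ht => ?_⟩
  have h := (isExpansion_coef hφ (galFin σ U hU c)).2 (galZ σ z) _
    (fun w => ht (w.comap (σ : F →+* F)))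
  rw [← σ.toEquiv.hasSum_iff] at h
  show HasSum _ (φ (galInf σ (ptAt z t), galFin σ U hU c))
  rw [galInf_ptAt σ z ht]
  refine h.congr_fun fun η => ?_
  show _ = coef φ (galFin σ U hU c) (σ η) * expChar (σ η) (galZ σ z) *
    (bessel (σ η) (fun w => t (w.comap (σ : F →+* F))) : ℂ)
  rw [expChar_galois, bessel_galois]

omit [NumberField.IsTotallyComplex F] in
theorem galFin_diaCoset (a : (FinAdele F)ˣ) :
    galFin σ U hU (diaCoset U a) =
      diaCoset U (Units.map (finMap (σ : F →+* F)).toRingHom.toMonoidHom a) := by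
  rw [diaCoset, galFin_mk, glFinMap, map_dia]
  rfl

/-- **Criterion**: a cusp form is fixed by `σ` when its Whittaker function on the diagonal is. -/
theorem galY_eq_self {φ : Y U → ℂ} (hφ : IsCuspEigen φ)
    (h : ∀ a, whit φ (diaCoset U (Units.map (finMap (σ : F →+* F)).toRingHom.toMonoidHom a)) =
      whit φ (diaCoset U a)) (y : Y U) : φ (galY σ U hU y) = φ y := by
  have hauto : IsAutomorphic fun y => φ (galY σ U hU y) := fun γ y => by
    show φ _ = φ _
    rw [galY_smul, hφ.automorphic]
  refine congrFun (eq_of_eq_on_dia hauto hφ.automorphic fun P a => ?_) y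
  obtain ⟨z, t, ht, rfl⟩ := exists_ptAt P
  refine ((isExpansion_galY σ hU hφ (diaCoset U a)).2 z t ht).unique ?_
  refine ((isExpansion_coef hφ (diaCoset U a)).2 z t ht).congr_fun fun η => ?_
  congr 2
  beta_reduce
  by_cases hη : η = 0
  · simp [hη, (isExpansion_coef hφ _).1]
  · rw [galFin_diaCoset]
    have e1 := coef_diaCoset hφ (Units.map (finMap (σ : F →+* F)).toRingHom.toMonoidHom a)
      (Units.mk0 (σ η) (by simpa using hη))
    have e2 := coef_diaCoset hφ a (Units.mk0 η hη)
    simp only [Units.val_mk0] at e1 e2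
    rw [e1, e2, ← h (globalIdele F (Units.mk0 η hη) * a)]
    congr 2
    rw [map_mul]
    congr 1
    ext
    exact (finMap_finIncl (σ : F →+* F) η).symm

end Fermat.Agent.LT.Rigidity

end
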