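import Fermat.Agent.LT.Rigidity.Good
import Fermat.Agent.LT.Whittaker.TestVector

/-!
# The places above three

Conditions on a function fixed by the cuspidal idempotent at `w`, and what they give on the
Whittaker function: one shell, invariance under units congruent to one, a sign for `-1`.
-/

set_option autoImplicit false

noncomputable section

open WithZero
open scoped NumberField

namespace Fermat.Agent.LT.Rigidity

open Places Whittaker

variable {F : Type*} [Field F] [NumberField F]

/-- The three integral residue lifts `0, 1, -1` at `w`, as adeles supported at `w`. -/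
def threeLift (w : FinPlace F) : Fin 3 → FinAdele F := ![0, idem w, -idem w]

/-- Each residue lift is supported at `w`, with integral component. -/
theorem threeLift_eq_single (w : FinPlace F) (j : Fin 3) :
    ∃ x : w.adicCompletion F, Valued.v x ≤ 1 ∧ threeLift w j = single w x := by
  fin_cases j
  · exact ⟨0, by simp, by simp [threeLift]⟩
  · exact ⟨1, by simp, by simp [threeLift, idem]⟩
  · exact ⟨-1, by simp, by simp [threeLift, idem]⟩

/-- What the cuspidal idempotent at `w` imposes on a function. -/
structure IsThreeFixed (U : Level F) (w : FinPlace F) (s : ℂ) (φ : Y U → ℂ) : Prop where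
  near : ∀ P (g : GLFin F) (e : (FinAdele F)ˣ), placeVal w ((e : FinAdele F) - 1) < 1 →
    (∀ v, v ≠ w → toPlace v (e : FinAdele F) = 1) →
    φ (P, QuotientGroup.mk (g * dia e)) = φ (P, QuotientGroup.mk g)
  flip : ∀ P (g : GLFin F) (e : (FinAdele F)ˣ), placeVal w ((e : FinAdele F) + 1) < 1 →
    (∀ v, v ≠ w → toPlace v (e : FinAdele F) = 1) →
    φ (P, QuotientGroup.mk (g * dia e)) = s * φ (P, QuotientGroup.mk g)
  unip : ∀ P (g : GLFin F) (x : FinAdele F), placeVal w x < 1 →
    (∀ v, v ≠ w → toPlace v x = 0) →
    φ (P, QuotientGroup.mk (g * Fermat.Agent.LT.unip x)) = φ (P, QuotientGroup.mk g)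
  cusp : ∀ P (g : GLFin F),
    ∑ j : Fin 3, φ (P, QuotientGroup.mk (g * Fermat.Agent.LT.unip (threeLift w j))) = 0

/-- The conductor of the additive character at `w`. -/
structure IsConductorTwo (w : FinPlace F) : Prop where
  trivial : ∀ y : w.adicCompletion F, Valued.v y ≤ exp (1 : ℤ) → psiFin F (single w y) = 1
  nontrivial : ∃ y : w.adicCompletion F, Valued.v y ≤ exp (2 : ℤ) ∧ psiFin F (single w y) ≠ 1

variable [NumberField.IsTotallyComplex F] {U : Level F} {φ : Y U → ℂ} {w : FinPlace F} {s : ℂ}

theorem whit_mk_of_eq (hφ : IsCuspEigen φ) (x h : GLFin F) (k : ℂ)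
    (e : ∀ P, φ (P, QuotientGroup.mk (x * h)) = k * φ (P, QuotientGroup.mk x)) :
    whit φ (QuotientGroup.mk (x * h)) = k * whit φ (QuotientGroup.mk x) := by
  have := whit_eq_sum (φ' := φ) (c := (QuotientGroup.mk (x * h) : GLFin F ⧸ U.toSubgroup))
    (Finset.univ : Finset Unit) (fun _ => k) (fun _ => φ) (fun _ _ => hφ)
    (fun _ => (QuotientGroup.mk x : GLFin F ⧸ U.toSubgroup)) (fun P => by simpa using e P)
  simpa using this

/-- Whittaker values are invariant under units near `1` at `w`. -/
theorem whit_mul_near (hφ : IsCuspEigen φ) (h : IsThreeFixed U w s φ) (a e : (FinAdele F)ˣ)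
    (he : placeVal w ((e : FinAdele F) - 1) < 1)
    (hoff : ∀ v, v ≠ w → toPlace v (e : FinAdele F) = 1) :
    whit φ (diaCoset U (a * e)) = whit φ (diaCoset U a) := by
  rw [diaCoset, dia_mul, whit_mk_of_eq hφ (dia a) (dia e) 1
    (fun P => by rw [one_mul]; exact h.near P _ e he hoff), one_mul]
  rfl

/-- Whittaker values change by `s` under units near `-1` at `w`. -/
theorem whit_mul_flip (hφ : IsCuspEigen φ) (h : IsThreeFixed U w s φ) (a e : (FinAdele F)ˣ)
    (he : placeVal w ((e : FinAdele F) + 1) < 1)
    (hoff : ∀ v, v ≠ w → toPlace v (e : FinAdele F) = 1) :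
    whit φ (diaCoset U (a * e)) = s * whit φ (diaCoset U a) := by
  rw [diaCoset, dia_mul, whit_mk_of_eq hφ (dia a) (dia e) s (fun P => h.flip P _ e he hoff)]
  rfl

/-- Whittaker values on unipotent translates of torus elements. -/
theorem whit_dia_unip (hφ : IsCuspEigen φ) (a : (FinAdele F)ˣ) (u : FinAdele F) :
    whit φ (QuotientGroup.mk (dia a * Fermat.Agent.LT.unip u)) =
      psiFin F ((a : FinAdele F) * u) * whit φ (diaCoset U a) := by
  rw [dia_mul_unip]
  exact whit_unip_smul hφ _ (diaCoset U a)

/-- **One shell**: the Whittaker function vanishes unless `|a|_w = q_w^2`. -/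
theorem whit_shell (hφ : IsCuspEigen φ) (hc : IsConductorTwo w) (h : IsThreeFixed U w s φ)
    (a : (FinAdele F)ˣ) (ha : placeVal w (a : FinAdele F) ≠ exp (2 : ℤ)) :
    whit φ (diaCoset U a) = 0 := by
  have hav := placeVal_eq_exp_ord w a
  set n := (ord w a).toAdd
  rw [hav, ne_eq, exp_inj] at ha
  by_cases hn : -n ≤ 1
  · have hsum := whit_eq_zero_of_sum (Finset.univ : Finset (Fin 3)) (fun _ => 1) hφ
      (fun j => (QuotientGroup.mk (dia a * Fermat.Agent.LT.unip (threeLift w j)) :
        GLFin F ⧸ U.toSubgroup)) (fun P => by simpa using h.cusp P (dia a))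
    have e : ∀ j, (1 : ℂ) * whit φ
        (QuotientGroup.mk (dia a * Fermat.Agent.LT.unip (threeLift w j)))
        = whit φ (diaCoset U a) := fun j => by
      obtain ⟨x, hx, hxe⟩ := threeLift_eq_single w j
      rw [one_mul, whit_dia_unip hφ, hxe]
      have he : (a : FinAdele F) * single w x = single w (toPlace w (a : FinAdele F) * x) :=
        ext_toPlace fun v => by
          rcases eq_or_ne v w with rfl | hv
          · rw [map_mul, toPlace_single_same, toPlace_single_same]
          · rw [map_mul, toPlace_single_ne hv, toPlace_single_ne hv, mul_zero]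
      rw [he, hc.trivial, one_mul]
      rw [map_mul]
      refine (mul_le_of_le_one_right' hx).trans ?_
      show placeVal w (a : FinAdele F) ≤ _
      rw [hav, exp_le_exp]
      exact hn
    simp only [e, Finset.sum_const, Finset.card_univ, Fintype.card_fin, nsmul_eq_mul] at hsum
    simpa using hsum
  · obtain ⟨y, hy, hne⟩ := hc.nontrivial
    set aw := toPlace w (a : FinAdele F)
    have haw : aw ≠ 0 := toPlace_units_ne_zero w a
    set u := single w (aw⁻¹ * y)
    have hu : placeVal w u < 1 := by
      rw [placeVal, toPlace_single_same, map_mul, map_inv₀,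
        show Valued.v aw = exp (-n) from hav, ← exp_neg]
      refine (mul_le_mul_right hy _).trans_lt ?_
      rw [← exp_add, ← exp_zero, exp_lt_exp]
      omega
    have hfix := whit_mk_of_eq hφ (dia a) (Fermat.Agent.LT.unip u) 1
      (fun P => by rw [one_mul]; exact h.unip P _ u hu fun v hv => toPlace_single_ne hv _)
    rw [one_mul, whit_dia_unip hφ] at hfix
    have he : (a : FinAdele F) * u = single w y := ext_toPlace fun v => by
      rcases eq_or_ne v w with rfl | hv
      · rw [map_mul, toPlace_single_same, toPlace_single_same, mul_inv_cancel_left₀ haw]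
      · rw [map_mul, toPlace_single_ne hv, toPlace_single_ne hv, mul_zero]
    rw [he] at hfix
    by_contra hw
    exact hne ((mul_eq_right₀ hw).mp hfix)

end Fermat.Agent.LT.Rigidity

end
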