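import Fermat.Agent.LT.Rigidity.Injective
import Fermat.Agent.LT.Geometric.CutoffFinite
import Fermat.Agent.LT.Descent.GalMeasure
import Fermat.Agent.LT.H3.ExpKernel
import Fermat.Agent.LT.Setup.Operators

/-!
# Spherical cusp forms are stable under field automorphisms

Complex conjugation preserves the invariant measure of hyperbolic three-space, so a radial
operator commutes with the action of the automorphism, up to permuting the profiles.
-/

set_option autoImplicit false

noncomputable section

open MeasureTheory
open scoped ComplexConjugate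
open NumberField (InfinitePlace)

namespace Fermat.Agent.LT

variable {F : Type*} [Field F] [NumberField F]

/-- The action on the archimedean part as a homeomorphism. -/
def galInfHomeo (σ : F ≃+* F) :
    (InfinitePlace F → H3) ≃ₜ (InfinitePlace F → H3) where
  toFun := galInf σ
  invFun := galInf σ.symm
  left_inv P := by
    rw [Geometric.galInf_trans, show σ.trans σ.symm = RingEquiv.refl F from
      RingEquiv.ext σ.symm_apply_apply]
    exact Geometric.galInf_refl P
  right_inv P := by
    rw [Geometric.galInf_trans, show σ.symm.trans σ = RingEquiv.refl F from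
      RingEquiv.ext σ.apply_symm_apply]
    exact Geometric.galInf_refl P
  continuous_toFun := Geometric.continuous_galInf σ
  continuous_invFun := Geometric.continuous_galInf σ.symm

/-- The profiles of a radial kernel moved by the automorphism. -/
def RadialKernel.galois (σ : F ≃+* F) (k : RadialKernel F) : RadialKernel F where
  profile w := k.profile (w.comap (σ : F →+* F))
  continuous _ := k.continuous _
  hasCompactSupport _ := k.hasCompactSupport _

theorem RadialKernel.weight_galois (σ : F ≃+* F) (k : RadialKernel F)
    (P Q : InfinitePlace F → H3) :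
    (k.galois σ).weight (galInf σ P) (galInf σ Q) = k.weight P Q := by
  simp only [RadialKernel.weight, RadialKernel.galois, Geometric.cdist_galInf]
  exact (Rigidity.comap_bijective σ).prod_comp fun u => k.profile u (H3.cdist (P u) (Q u))

theorem RadialKernel.scalar_galois (σ : F ≃+* F) (k : RadialKernel F) :
    (k.galois σ).scalar = k.scalar :=
  (Rigidity.comap_bijective σ).prod_comp fun u => H3.sph (k.profile u)

variable {U : Level F} (σ : F ≃+* F)
  (hU : ∀ g ∈ U.toSubgroup, glFinMap (σ : F →+* F) g ∈ U.toSubgroup)

/-- A radial eigenfunction composed with the automorphism is one. -/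
theorem IsRadialEigen.galY {φ : Y U → ℂ} (h : IsRadialEigen φ) :
    IsRadialEigen fun y => φ (Fermat.Agent.LT.galY σ U hU y) := by
  rintro k ⟨P, c⟩
  have h' := h (k.galois σ) (galInf σ P, galFin σ U hU c)
  rw [RadialKernel.scalar_galois] at h'
  refine Eq.trans ?_ h'
  show ∫ Q, k.weight P Q • φ (galInf σ Q, galFin σ U hU c) ∂infVol F =
    ∫ Q, (k.galois σ).weight (galInf σ P) Q • φ (Q, galFin σ U hU c) ∂infVol F
  rw [← (Descent.measurePreserving_galInf σ).integral_comp (galInfHomeo σ).measurableEmbedding
    (fun Q => (k.galois σ).weight (galInf σ P) Q • φ (Q, galFin σ U hU c))]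
  simp only [RadialKernel.weight_galois]

/-- The Galois action is semilinear for left translations. -/
theorem galFin_smul (γ : GL (Fin 2) F) (c : GLFin F ⧸ U.toSubgroup) :
    galFin σ U hU (glIncl F γ • c) =
      glIncl F (Matrix.GeneralLinearGroup.map (σ : F →+* F) γ) • galFin σ U hU c :=
  congrArg Prod.snd (galY_smul σ U hU γ (fun _ => H3.origin, c))

omit [NumberField F] in
theorem galZ_sum (σ : F ≃+* F) {n : ℕ} (u : Fin n → ℝ) (b : Fin n → F) :
    Rigidity.galZ σ (fun w => ∑ i, (u i : ℂ) * w.embedding (b i)) =
      fun w => ∑ i, (u i : ℂ) * w.embedding (σ (b i)) := by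
  funext w
  unfold Rigidity.galZ
  split_ifs with h
  · exact Finset.sum_congr rfl fun i _ => by rw [← h]; rfl
  · rw [map_sum]
    refine Finset.sum_congr rfl fun i _ => ?_
    rw [map_mul, Complex.conj_ofReal,
      show w.embedding (σ (b i)) = conj ((w.comap (σ : F →+* F)).embedding (b i)) from
        DFunLike.congr_fun (embedding_comap_of_ne σ w h) (b i)]

/-- **A spherical cusp form composed with a field automorphism is a spherical cusp form.** -/
theorem IsSphericalCuspForm.galY {φ : Y U → ℂ} (h : IsSphericalCuspForm φ) :
    IsSphericalCuspForm fun y => φ (Fermat.Agent.LT.galY σ U hU y) := by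
  have hrad := h.radial.galY σ hU
  have hcont : ∀ c, Continuous fun P => φ (galInf σ P, galFin σ U hU c) := fun c =>
    (h.cuspEigen.continuous _).comp (Geometric.continuous_galInf σ)
  have hbdd : ∃ C : ℝ, ∀ y, ‖φ (Fermat.Agent.LT.galY σ U hU y)‖ ≤ C :=
    h.cuspEigen.bounded.imp fun C hC y => hC _
  refine ⟨⟨fun γ y => ?_, hcont, hbdd, Whittaker.eigen_of_isRadialEigen hrad hcont hbdd,
    fun c t b ht hb => ?_⟩, hrad⟩
  · show φ _ = φ _
    rw [galY_smul, h.cuspEigen.automorphic]
  · let e : F ≃ₗ[ℚ] F :=
      { σ.toAddEquiv with
        map_smul' := fun q x => by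
          show σ (q • x) = q • σ x
          rw [Rat.smul_def, Rat.smul_def, map_mul, map_ratCast] }
    have hz := h.cuspEigen.zeroConst (galFin σ U hU c) (fun w => t (w.comap (σ : F →+* F)))
      (b.map e) (fun w => ht _) fun i => by
        have hu : Matrix.GeneralLinearGroup.map (σ : F →+* F) (unip (b i)) = unip (σ (b i)) :=
          Whittaker.map_unip _ _
        rw [Module.Basis.map_apply, show e (b i) = σ (b i) from rfl, ← hu,
          ← galFin_smul σ hU, hb i]
    rw [← hz]
    refine setIntegral_congr_fun ?_ fun u _ => ?_
    · have he : {u : Fin (Module.finrank ℚ F) → ℝ | ∀ i, u i ∈ Set.Ioc (0 : ℝ) 1} =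
          Set.univ.pi fun _ => Set.Ioc 0 1 := by ext; simp
      rw [he]
      exact MeasurableSet.univ_pi fun _ => measurableSet_Ioc
    · show φ (galInf σ _, _) = φ (_, _)
      rw [Rigidity.galInf_ptAt σ _ ht, galZ_sum]
      rfl

end Fermat.Agent.LT

end
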