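import Mathlib.LinearAlgebra.Trace
import Mathlib.LinearAlgebra.FiniteDimensional.Basic
import Mathlib.LinearAlgebra.Projection
import Mathlib.Analysis.Complex.Basic

/-!
# A twisted trace killed by intertwined components

If on the range of an idempotent `E` commuting with `S` some injective operator `U` satisfies
`S U = c U S` with `c ≠ 1`, then that component contributes nothing to the trace of `S`.
-/

set_option autoImplicit false

noncomputable section

namespace Fermat.Agent.LT.Rigidity

open Module

variable {V : Type*} [AddCommGroup V] [Module ℂ V]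

/-- A component on which the trace of `S` vanishes. -/
structure IsTwistedComponent (S E U : Module.End ℂ V) : Prop where
  idem : E * E = E
  comm_S : S * E = E * S
  comm_U : U * E = E * U
  injective : ∀ v, U (E v) = 0 → E v = 0
  twist : ∃ c : ℂ, c ≠ 1 ∧ S * U * E = c • (U * S * E)

/-- The trace of `S P` on a twisted component is zero, for `P` commuting with everything. -/
theorem trace_component_eq_zero [FiniteDimensional ℂ V] {S E U P : Module.End ℂ V}
    (h : IsTwistedComponent S E U) (hPE : P * E = E * P) (hPU : P * U = U * P) :
    LinearMap.trace ℂ V (S * P * E) = 0 := by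
  obtain ⟨c, hc, htw⟩ := h.twist
  set T := U * E + (1 - E) with hT
  have hE : ∀ v, E (E v) = E v := fun v => LinearMap.congr_fun h.idem v
  have hinj : Function.Injective T := by
    refine (injective_iff_map_eq_zero T).2 fun v hv => ?_
    have hv' : U (E v) + (v - E v) = 0 := hv
    have h1 : E (U (E v)) + (E v - E v) = 0 := by
      have := congrArg E hv'
      rwa [map_add, map_sub, hE, map_zero] at this
    rw [sub_self, add_zero, ← show U (E (E v)) = E (U (E v)) from
      LinearMap.congr_fun h.comm_U (E v), hE] at h1
    rw [h1, zero_add, h.injective v h1, sub_zero] at hv'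
    exact hv'
  obtain ⟨e, he⟩ : ∃ e : V ≃ₗ[ℂ] V, (e : V →ₗ[ℂ] V) = T :=
    ⟨LinearEquiv.ofInjectiveEndo T hinj, LinearMap.ext fun _ => rfl⟩
  set X := S * P * E
  have h1 : X * T = c • (T * X) := by
    have hEX : E * X = X := by
      simp only [X]
      rw [← mul_assoc, ← mul_assoc, ← h.comm_S, mul_assoc S E P, ← hPE, ← mul_assoc,
        mul_assoc _ E E,
        h.idem]
    have hr : T * X = U * X := by
      rw [hT, add_mul, sub_mul, one_mul, hEX, sub_self, add_zero, mul_assoc, hEX]
    have hl : X * T = S * U * E * P := by
      rw [hT, mul_add, mul_sub, mul_one, show X * (U * E) = S * U * E * P from ?_,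
        show X * E = X by simp only [X]; rw [mul_assoc, h.idem], sub_self, add_zero]
      simp only [X]
      calc S * P * E * (U * E) = S * P * (E * U) * E := by simp only [mul_assoc]
        _ = S * P * U * (E * E) := by rw [← h.comm_U]; simp only [mul_assoc]
        _ = S * (P * U) * E := by rw [h.idem]; simp only [mul_assoc]
        _ = S * U * (P * E) := by rw [hPU]; simp only [mul_assoc]
        _ = S * U * E * P := by rw [hPE]; simp only [mul_assoc]
    rw [hl, htw, hr, smul_mul_assoc]
    congr 1
    simp only [X, mul_assoc, hPE]
  have h2 : LinearMap.trace ℂ V X = c * LinearMap.trace ℂ V X := by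
    conv_lhs => rw [← LinearMap.trace_conj' X e.symm]
    rw [← smul_eq_mul, ← map_smul]
    congr 1
    refine LinearMap.ext fun v => e.injective ?_
    rw [LinearEquiv.conj_apply]
    simp only [LinearMap.comp_apply, LinearEquiv.coe_coe, LinearEquiv.symm_symm,
      LinearEquiv.apply_symm_apply]
    have h3 := LinearMap.congr_fun h1 v
    rw [← he] at h3
    simp only [Module.End.mul_apply, LinearMap.smul_apply, LinearEquiv.coe_coe] at h3
    rw [h3, LinearMap.smul_apply, map_smul]
  by_contra hne
  exact hc (mul_right_cancel₀ hne (by rw [one_mul, ← h2]))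

variable {κ : Type*}

theorem pairwise_commute (E : κ → Module.End ℂ V) (s : Finset κ)
    (hc : ∀ k l, Commute (E k) (E l)) :
    (s : Set κ).Pairwise (Function.onFun Commute fun k => 1 - E k) := fun k _ l _ _ =>
  (Commute.one_left _).sub_left ((Commute.one_right _).sub_right (hc k l))

/-- The part outside all components in `s`. -/
def outside (E : κ → Module.End ℂ V) (s : Finset κ)
    (hc : ∀ k l, Commute (E k) (E l)) : Module.End ℂ V :=
  s.noncommProd (fun k => 1 - E k) (pairwise_commute E s hc)

/-- **The trace identity**: with all components twisted, `tr S` is the trace on the outside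
part; if `S` is the identity there, it is its dimension. -/
theorem trace_ne_zero [FiniteDimensional ℂ V] (S : Module.End ℂ V) (E U : κ → Module.End ℂ V)
    (s : Finset κ) (hcomp : ∀ k ∈ s, IsTwistedComponent S (E k) (U k))
    (hEE : ∀ k l, Commute (E k) (E l)) (hUE : ∀ k ∈ s, ∀ l ∈ s, Commute (U k) (E l))
    (hfix : ∀ v, (∀ k ∈ s, E k v = 0) → S v = v)
    {v₀ : V} (hv₀ : v₀ ≠ 0) (hv₀E : ∀ k ∈ s, E k v₀ = 0) :
    ∃ n : ℕ, 0 < n ∧ LinearMap.trace ℂ V S = n := by
  classical
  set P := outside E s hEE with hP
  have hEP : ∀ k ∈ s, ∀ v, E k (P v) = 0 := by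
    intro k hk v
    have he : P = _ :=
      (Finset.noncommProd_erase_mul s hk (fun k => 1 - E k) (pairwise_commute E s hEE)).symm
    rw [he, Module.End.mul_apply]
    have hcm : Commute (E k)
        ((s.erase k).noncommProd (fun k => 1 - E k) (pairwise_commute E _ hEE)) :=
      Finset.noncommProd_commute _ _ _ _ fun l _ =>
        (Commute.one_right _).sub_right (hEE k l)
    rw [← Module.End.mul_apply, hcm.eq, Module.End.mul_apply, LinearMap.sub_apply,
      Module.End.one_apply, map_sub, show E k (E k v) = E k v from
        LinearMap.congr_fun (hcomp k hk).idem v, sub_self, map_zero]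
  have hPfix : ∀ v, (∀ k ∈ s, E k v = 0) → P v = v := by
    intro v hv
    rw [hP, outside]
    refine Finset.noncommProd_induction _ _ _ (fun T : Module.End ℂ V => T v = v) ?_ rfl
      fun k hk => ?_
    · intro a b ha hb
      rw [Module.End.mul_apply, hb, ha]
    · rw [LinearMap.sub_apply, Module.End.one_apply, hv k hk, sub_zero]
  have hSP : S * P = P := LinearMap.ext fun v => hfix _ fun k hk => hEP k hk v
  have htr : ∀ t : Finset κ, t ⊆ s →
      LinearMap.trace ℂ V (S * outside E t hEE) = LinearMap.trace ℂ V S := by
    intro t
    induction t using Finset.induction_on with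
    | empty => intro _; rw [outside, Finset.noncommProd_empty, mul_one]
    | insert k t hk ih =>
      intro hts
      have hks : k ∈ s := hts (Finset.mem_insert_self k t)
      have hts' : t ⊆ s := fun l hl => hts (Finset.mem_insert_of_mem hl)
      set Q := outside E t hEE with hQ
      have hins : outside E (insert k t) hEE = Q * (1 - E k) := by
        rw [hQ, outside, outside, Finset.noncommProd_insert_of_notMem' _ _ _ _ hk]
      rw [hins, mul_sub, mul_one, mul_sub, map_sub, ← mul_assoc,
        trace_component_eq_zero (hcomp k hks) ?_ ?_, sub_zero, ih hts']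
      · exact (Finset.noncommProd_commute _ _ _ _ fun l _ =>
          (Commute.one_right _).sub_right (hEE k l)).symm.eq
      · exact (Finset.noncommProd_commute _ _ _ _ fun l hl =>
          (Commute.one_right _).sub_right (hUE k hks l (hts' hl))).symm.eq
  have hidem : ∀ v, P (P v) = P v := fun v => hPfix _ fun k hk => hEP k hk v
  refine ⟨finrank ℂ (LinearMap.range P), ?_, ?_⟩
  · rw [Nat.pos_iff_ne_zero, Ne, Submodule.finrank_eq_zero]
    intro h0
    have : v₀ ∈ LinearMap.range P := ⟨v₀, hPfix v₀ hv₀E⟩
    rw [h0, Submodule.mem_bot] at this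
    exact hv₀ this
  · rw [← htr s le_rfl, ← hP, hSP]
    refine LinearMap.IsProj.trace ⟨fun v => LinearMap.mem_range_self P v, ?_⟩
    rintro _ ⟨v, rfl⟩
    exact hidem v

end Fermat.Agent.LT.Rigidity

end
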