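import Fermat.Agent.LT.Rigidity.Fibre
import Fermat.Agent.LT.Rigidity.TwistedTrace
import Fermat.Agent.LT.Rigidity.GaloisCusp

/-!
# The trace of the automorphism on the fibre is a positive integer

Outside the twisted tame components every function of the fibre is fixed by `σ`, because its
Whittaker function on the diagonal is; those components contribute nothing to the trace.
-/

set_option autoImplicit false

noncomputable section

open WithZero
open scoped NumberField

namespace Fermat.Agent.LT.Rigidity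

open Places Whittaker

variable {F : Type*} [Field F] [NumberField F] [NumberField.IsTotallyComplex F]

omit [NumberField.IsTotallyComplex F] in
/-- Conjugate places have residue fields of the same size. -/
theorem card_residue_placeEquiv (σ : F ≃+* F) (v : FinPlace F) :
    Nat.card (Residue (placeEquiv σ v)) = Nat.card (Residue v) := by
  let e : 𝓞 F ≃+* 𝓞 F := NumberField.RingOfIntegers.mapRingEquiv σ
  refine Nat.card_congr (Ideal.quotientEquiv _ _ e ?_).toEquiv
  show v.asIdeal = Ideal.map (e : 𝓞 F →+* 𝓞 F)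
    (v.asIdeal.comap (NumberField.RingOfIntegers.mapRingHom (σ : F →+* F)))
  rw [show NumberField.RingOfIntegers.mapRingHom (σ : F →+* F) = (e : 𝓞 F →+* 𝓞 F) from
    RingHom.ext fun x => NumberField.RingOfIntegers.ext rfl,
    Ideal.map_comap_of_surjective _ (show Function.Surjective (e : 𝓞 F →+* 𝓞 F) from e.surjective)]

omit [NumberField F] [NumberField.IsTotallyComplex F] in
/-- An automorphism of order three acts with order three. -/
theorem glFinMap_three (σ : F ≃+* F) (h : ∀ x : F, σ (σ (σ x)) = x) (g : GLFin F) :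
    glFinMap (σ : F →+* F) (glFinMap (σ : F →+* F) (glFinMap (σ : F →+* F) g)) = g := by
  have key : ∀ x : FinAdele F,
      finMap (σ : F →+* F) (finMap (σ : F →+* F) (finMap (σ : F →+* F) x)) = x := by
    intro x
    induction x using TensorProduct.induction_on with
    | zero => simp
    | tmul a z => simp [h]
    | add a b ha hb => rw [map_add, map_add, map_add, ha, hb]
  ext i j
  exact key _

variable {σ : F ≃+* F} {I : Ideal (𝓞 F)} {hI : ∃ N : ℕ, 0 < N ∧ (N : 𝓞 F) ∈ I}
  {Q R : Finset (FinPlace F)} {g : Fˣ} {lam : FinPlace F → ℂ} {s : ℂ}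
  {φ : Y (Level.ofIdeal F I hI) → ℂ}

/-- The Whittaker function of a function of the fibre is invariant once it is at the tame
places. -/
theorem InFibre.whit_invariant (H : IsFibreSetting σ I Q R g lam)
    (h : InFibre σ Q R lam s φ)
    (htame : ∀ v ∈ Q, ∀ a : (FinAdele F)ˣ,
      whit φ (diaCoset _ (mix {v} a (idelMap σ a))) = whit φ (diaCoset _ a))
    (a : (FinAdele F)ˣ) :
    whit φ (diaCoset (Level.ofIdeal F I hI) (idelMap σ a)) = whit φ (diaCoset _ a) := by
  have hc := h.cusp.cuspEigen
  have hgval : ∀ v ∈ R, placeVal v (globalIdele F g : FinAdele F) = exp (2 : ℤ) := fun v hv =>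
    (placeVal_finIncl v _).trans (H.g_val v hv)
  refine IsLocallyRigid.eq_idelMap (f := fun a => whit φ (diaCoset (Level.ofIdeal F I hI) a))
    (g := globalIdele F g) (s := s)
    (c := fun v => goodFactor (Nat.card (Residue v)) (lam v))
    (Q := Q) (R := R) ?_ H.three a
  exact
    { fixed := H.fixed
      stable := H.stable
      disjoint := H.disjoint
      unit := fun a u hu hu1 => by
        show whit φ _ = whit φ _
        rw [diaCoset_mul_unit a u hu fun v hv => hu1 v ((H.le_iff v).mp hv)]
      tame := htame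
      g_fixed := idelMap_globalIdele σ g H.g_fixed
      shell := fun v hv a ha =>
        whit_shell hc (H.conductor v hv) (h.three v hv) a (hgval v hv ▸ ha)
      residue := fun v hv a ha => by
        rw [placeVal, placeVal, map_sub, map_add, map_one]
        exact H.residue v hv _ ha
      near := fun v hv a e he hoff => whit_mul_near hc (h.three v hv) a e he hoff
      flip := fun v hv a e he hoff => whit_mul_flip hc (h.three v hv) a e he hoff
      split := fun v hQ hR hσ a k ha =>
        whit_diaCoset_piUnit hc v (isGoodAt_of_notMem H hQ hR) (H.diff v hQ hR)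
          (h.hecke v hQ hR hσ) a ha k
      c_stable := fun v hQ hR hσ k => by
        rw [card_residue_placeEquiv, H.lam_stable v hQ hR hσ] }

/-- A function of the fibre with invariant Whittaker function at the tame places is fixed. -/
theorem InFibre.galY_eq (H : IsFibreSetting σ I Q R g lam)
    (hU : ∀ x ∈ (Level.ofIdeal F I hI).toSubgroup,
      glFinMap (σ : F →+* F) x ∈ (Level.ofIdeal F I hI).toSubgroup)
    (h : InFibre σ Q R lam s φ)
    (htame : ∀ v ∈ Q, ∀ a : (FinAdele F)ˣ,
      whit φ (diaCoset _ (mix {v} a (idelMap σ a))) = whit φ (diaCoset _ a))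
    (y : Y (Level.ofIdeal F I hI)) : φ (Fermat.Agent.LT.galY σ _ hU y) = φ y :=
  galY_eq_self σ hU h.cusp.cuspEigen (fun a => h.whit_invariant H htame a) y

omit [NumberField.IsTotallyComplex F] in
/-- The fibre is closed under sums. -/
theorem InFibre.add
    {ψ : Y (Level.ofIdeal F I hI) → ℂ} (h : InFibre σ Q R lam s φ)
    (h' : InFibre σ Q R lam s ψ) : InFibre σ Q R lam s (φ + ψ) := by
  refine ⟨?_, fun v hQ hR hσ y => ?_, fun w hw => ?_⟩
  · have e : φ + ψ = fun y => ∑ i : Fin 2, (![1, 1] : Fin 2 → ℂ) i * ![φ, ψ] i y := by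
      funext y; simp [Fin.sum_univ_two]
    rw [e]
    refine Translate.isSphericalCuspForm_sum _ _ _ fun i _ => ?_
    fin_cases i
    · exact h.cusp
    · exact h'.cusp
  · rw [HeckeFn.doubleOp_eq_op, HeckeFn.op_add_fun, Pi.add_apply, ← HeckeFn.doubleOp_eq_op,
      ← HeckeFn.doubleOp_eq_op, h.hecke v hQ hR hσ, h'.hecke v hQ hR hσ, Pi.add_apply, mul_add]
  · obtain ⟨a1, a2, a3, a4⟩ := h.three w hw
    obtain ⟨b1, b2, b3, b4⟩ := h'.three w hw
    refine ⟨fun P x e he ho => ?_, fun P x e he ho => ?_, fun P x u hu ho => ?_, fun P x => ?_⟩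
    · simp only [Pi.add_apply, a1 P x e he ho, b1 P x e he ho]
    · simp only [Pi.add_apply, a2 P x e he ho, b2 P x e he ho, mul_add]
    · simp only [Pi.add_apply, a3 P x u hu ho, b3 P x u hu ho]
    · simp only [Pi.add_apply, Finset.sum_add_distrib, a4 P x, b4 P x, add_zero]

omit [NumberField.IsTotallyComplex F] in
/-- The fibre is closed under scalars. -/
theorem InFibre.smul (k : ℂ)
    (h : InFibre σ Q R lam s φ) : InFibre σ Q R lam s (k • φ) := by
  refine ⟨?_, fun v hQ hR hσ y => ?_, fun w hw => ?_⟩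
  · have e : k • φ = fun y => ∑ _i : Fin 1, k * φ y := by
      funext y; simp
    rw [e]
    exact Translate.isSphericalCuspForm_sum _ (fun _ => k) (fun _ => φ) fun _ _ => h.cusp
  · rw [HeckeFn.doubleOp_eq_op, HeckeFn.op_smul_fun, Pi.smul_apply, ← HeckeFn.doubleOp_eq_op,
      h.hecke v hQ hR hσ, Pi.smul_apply, smul_eq_mul, smul_eq_mul, mul_left_comm]
  · obtain ⟨a1, a2, a3, a4⟩ := h.three w hw
    refine ⟨fun P x e he ho => ?_, fun P x e he ho => ?_, fun P x u hu ho => ?_, fun P x => ?_⟩
    · simp only [Pi.smul_apply, a1 P x e he ho]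
    · simp only [Pi.smul_apply, smul_eq_mul, a2 P x e he ho, mul_left_comm]
    · simp only [Pi.smul_apply, a3 P x u hu ho]
    · simp only [Pi.smul_apply, ← Finset.smul_sum, a4 P x, smul_zero]

omit [NumberField.IsTotallyComplex F] in
/-- The fibre contains zero. -/
theorem InFibre.zero :
    InFibre σ Q R lam s (0 : Y (Level.ofIdeal F I hI) → ℂ) := by
  refine ⟨?_, fun v _ _ _ y => ?_, fun w _ => ?_⟩
  · have e : (0 : Y (Level.ofIdeal F I hI) → ℂ) =
        fun y => ∑ i ∈ (∅ : Finset (Fin 1)), (0 : ℂ) * (0 : Y (Level.ofIdeal F I hI) → ℂ) y := by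
      funext y; simp
    rw [e]
    exact Translate.isSphericalCuspForm_sum ∅ (fun _ => 0) (fun _ => 0)
      fun i hi => absurd hi (Finset.notMem_empty i)
  · simp [doubleOp]
  · refine ⟨fun P x e he ho => ?_, fun P x e he ho => ?_, fun P x u hu ho => ?_, fun P x => ?_⟩ <;>
      simp

/-- The fibre as a subspace. -/
def fibre (_H : IsFibreSetting σ I Q R g lam) (hI : ∃ N : ℕ, 0 < N ∧ (N : 𝓞 F) ∈ I) (s : ℂ) :
    Submodule ℂ (Y (Level.ofIdeal F I hI) → ℂ) where
  carrier := {φ | InFibre σ Q R lam s φ}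
  add_mem' h h' := InFibre.add h h'
  zero_mem' := InFibre.zero
  smul_mem' k _ h := InFibre.smul k h

/-- What the tame places supply: for each `k` an idempotent `proj k` and an intertwiner `up k`,
supported at the tame place `place k`. -/
structure IsTameSystem (H : IsFibreSetting σ I Q R g lam)
    (hI : ∃ N : ℕ, 0 < N ∧ (N : 𝓞 F) ∈ I) (s : ℂ)
    (hU : ∀ x ∈ (Level.ofIdeal F I hI).toSubgroup,
      glFinMap (σ : F →+* F) x ∈ (Level.ofIdeal F I hI).toSubgroup)
    {κ : Type} (place : κ → FinPlace F) (proj up : κ → HeckeFn (Level.ofIdeal F I hI)) : Prop where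
  place_mem : ∀ k, place k ∈ Q
  proj_supported : ∀ k, IsSupportedAt (place k) (proj k)
  up_supported : ∀ k, IsSupportedAt (place k) (up k)
  idem : ∀ k, ∀ φ ∈ fibre H hI s, (proj k).op ((proj k).op φ) = (proj k).op φ
  comm_galY : ∀ k, ∀ φ ∈ fibre H hI s,
    (proj k).op (fun y => φ (galY σ _ hU y)) = fun y => (proj k).op φ (galY σ _ hU y)
  comm_proj : ∀ k l, ∀ φ ∈ fibre H hI s,
    (proj k).op ((proj l).op φ) = (proj l).op ((proj k).op φ)
  comm_up : ∀ k l, ∀ φ ∈ fibre H hI s,
    (up k).op ((proj l).op φ) = (proj l).op ((up k).op φ)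
  injective : ∀ k, ∀ φ ∈ fibre H hI s, (up k).op ((proj k).op φ) = 0 → (proj k).op φ = 0
  twist : ∀ k, ∃ c : ℂ, c ≠ 1 ∧ ∀ φ ∈ fibre H hI s,
    (fun y => (up k).op ((proj k).op φ) (galY σ _ hU y)) =
      c • (up k).op (fun y => (proj k).op φ (galY σ _ hU y))
  invariant : ∀ φ ∈ fibre H hI s, (∀ k, (proj k).op φ = 0) → ∀ v ∈ Q, ∀ a : (FinAdele F)ˣ,
    whit φ (diaCoset _ (mix {v} a (idelMap σ a))) = whit φ (diaCoset _ a)

/-- The automorphism on the fibre. -/
def fibreGalY (H : IsFibreSetting σ I Q R g lam) {hI : ∃ N : ℕ, 0 < N ∧ (N : 𝓞 F) ∈ I} {s : ℂ}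
    (h3 : ∀ x : F, σ (σ (σ x)) = x)
    (hU : ∀ x ∈ (Level.ofIdeal F I hI).toSubgroup,
      glFinMap (σ : F →+* F) x ∈ (Level.ofIdeal F I hI).toSubgroup) :
    Module.End ℂ (fibre H hI s) where
  toFun φ := ⟨fun y => φ.1 (galY σ _ hU y), by
    have hsurj : Function.Surjective (glFinMap (σ : F →+* F)) := fun x =>
      ⟨_, glFinMap_three σ h3 x⟩
    have hinv : ∀ x : GLFin F, glFinMap (σ : F →+* F) x ∈ (Level.ofIdeal F I hI).toSubgroup →
        x ∈ (Level.ofIdeal F I hI).toSubgroup := fun x hx => by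
      rw [← glFinMap_three σ h3 x]
      exact hU _ (hU _ hx)
    refine InFibre.galY hU H ⟨fun a b e => ?_, fun b => ?_⟩ hinv hsurj (φ.2.cusp.galY σ hU) φ.2
    · induction a using QuotientGroup.induction_on with
      | H a =>
      induction b using QuotientGroup.induction_on with
      | H b =>
      rw [galFin_mk, galFin_mk, QuotientGroup.eq, ← map_inv, ← map_mul] at e
      exact QuotientGroup.eq.mpr (hinv _ e)
    · induction b using QuotientGroup.induction_on with
      | H b =>
      obtain ⟨a, rfl⟩ := hsurj b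
      exact ⟨QuotientGroup.mk a, galFin_mk σ _ hU a⟩⟩
  map_add' _ _ := rfl
  map_smul' _ _ := rfl

end Fermat.Agent.LT.Rigidity

end
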