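import Fermat.Agent.LT.Rigidity.Fibre
import Fermat.Agent.LT.Descent.LevelPlaces
import Fermat.Agent.LT.Descent.Assembly
import Fermat.Agent.LT.GaloisData.Frobenius

/-!
# The fibre setting of cubic descent

For the cubic field with the level of `Descent.Levels`: the additive character has conductor two
at the places above three, and the eigenvalues of the dihedral form are invariant under the
generator.
-/

set_option autoImplicit false

noncomputable section

open scoped NumberField Pointwise nonZeroDivisors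
open WithZero
open IsDedekindDomain (HeightOneSpectrum)
open Fermat.Agent.GaloisBasics
open Fermat.Agent.LT.Final (GF3)
open Fermat.Agent.LT.Places (FinPlace comapPlace placeEquiv toPlace single placeVal)

namespace Fermat.Agent.LT.Rigidity

section General

variable {F : Type*} [Field F] [NumberField F]

/-- An element with a single pole of order at most one, at a ramified place, has integral
trace. -/
theorem exists_intCast_eq_trace {w : FinPlace F} (hw : differentIdeal ℤ (𝓞 F) ≤ w.asIdeal)
    {b : F} (hb : w.valuation F b ≤ exp (1 : ℤ))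
    (hoff : ∀ u : FinPlace F, u ≠ w → u.valuation F b ≤ 1) :
    ∃ n : ℤ, (n : ℚ) = Algebra.trace ℚ F b := by
  have h := (differentialIdeal_le_iff (A := ℤ) (K := ℚ) (L := F) (B := 𝓞 F) w.ne_bot).mp hw
  have hmem : b ∈ ((w.asIdeal : FractionalIdeal (𝓞 F)⁰ F)⁻¹ : FractionalIdeal (𝓞 F)⁰ F) := by
    rw [FractionalIdeal.mem_inv_iff (FractionalIdeal.coeIdeal_ne_zero.mpr w.ne_bot)]
    intro y hy
    obtain ⟨o, ho, rfl⟩ := (FractionalIdeal.mem_coeIdeal _).mp hy
    rw [FractionalIdeal.mem_one_iff]
    refine (HeightOneSpectrum.mem_integers_of_valuation_le_one F _ fun u => ?_).imp fun _ e => e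
    rw [map_mul]
    rcases eq_or_ne u w with rfl | hu
    · have ho' : u.valuation F (algebraMap (𝓞 F) F o) ≤ exp (-((1 : ℕ) : ℤ)) := by
        rw [HeightOneSpectrum.valuation_of_algebraMap]
        exact (u.intValuation_le_pow_iff_mem o 1).2 (by rwa [pow_one])
      refine (mul_le_mul' hb ho').trans ?_
      rw [← exp_add, ← exp_zero, exp_le_exp]
      norm_num
    · exact mul_le_one' (hoff u hu) (u.valuation_le_one o)
  obtain ⟨n, hn⟩ := Submodule.mem_one.mp (h ⟨b, hmem, rfl⟩)
  exact ⟨n, hn⟩

/-- The global character is trivial on elements of integral trace. -/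
theorem psiGlobal_eq_one {b : F} {n : ℤ} (h : (n : ℚ) = Algebra.trace ℚ F b) :
    Whittaker.psiGlobal b = 1 := by
  rw [Whittaker.psiGlobal, Complex.exp_eq_one_iff]
  refine ⟨-n, ?_⟩
  rw [← h]
  push_cast
  ring

/-- At a ramified place the additive character is trivial on the inverse of the prime. -/
theorem psiFin_single_eq_one {w : FinPlace F} (hw : differentIdeal ℤ (𝓞 F) ≤ w.asIdeal)
    {y : w.adicCompletion F} (hy : Valued.v y ≤ exp (1 : ℤ)) :
    Whittaker.psiFin F (single w y) = 1 := by
  obtain ⟨b, hb⟩ := Whittaker.exists_finIncl_sub (single w y)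
  have hoff : ∀ u : FinPlace F, u ≠ w → u.valuation F b ≤ 1 := fun u hu => by
    have := Places.placeVal_le_one u hb
    rw [placeVal, map_sub, Places.toPlace_single_ne hu, zero_sub, Valuation.map_neg] at this
    rwa [← Places.placeVal_finIncl, placeVal]
  have hbw : w.valuation F b ≤ exp (1 : ℤ) := by
    have := Places.placeVal_le_one w hb
    rw [placeVal, map_sub, Places.toPlace_single_same] at this
    rw [← Places.placeVal_finIncl, placeVal, ← sub_sub_cancel y (toPlace w (finIncl F b))]
    refine (Valuation.map_sub _ _ _).trans (max_le hy (this.trans ?_))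
    rw [← exp_zero, exp_le_exp]
    norm_num
  obtain ⟨n, hn⟩ := exists_intCast_eq_trace hw hbw hoff
  rw [Whittaker.psiFin_eq hb, psiGlobal_eq_one hn]

end General

open GaloisData Descent

variable {ρ : GalQ →* GF3} (hρ : IsSupersingularRep ρ) [NumberField (cubicField ρ)]
  [IsGalois ℚ (cubicField ρ)]

local notation "L" => cubicField ρ

include hρ

/-- An integer congruent to one at a place above three and to zero at the others has trace prime
to three. -/
theorem not_three_dvd_trace {w : FinPlace L} (hw : w ∈ placesThree hρ) {x : 𝓞 L}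
    (hx1 : x - 1 ∈ w.asIdeal)
    (hx0 : ∀ u ∈ placesThree hρ, u ≠ w → x ∈ u.asIdeal) {n : ℤ}
    (hn : ((3 * n : ℤ) : ℚ) = Algebra.trace ℚ L (x : L)) : False := by
  classical
  have := finiteDimensional_fixH hρ.continuous quatGroup
  have hsum : ((3 * n : ℤ) : 𝓞 L) = ∑ g : L ≃ₐ[ℚ] L, g • x := by
    refine NumberField.RingOfIntegers.ext ?_
    rw [NumberField.RingOfIntegers.coe_eq_algebraMap, NumberField.RingOfIntegers.coe_eq_algebraMap,
      map_sum, map_intCast]
    have h := trace_eq_sum_automorphisms (K := ℚ) (x : L)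
    rw [← hn, map_intCast] at h
    exact h.trans (Finset.sum_congr rfl fun g _ => rfl)
  set S := MulAction.stabilizer (L ≃ₐ[ℚ] L) w.asIdeal
  have hterm : ∀ g : L ≃ₐ[ℚ] L, g • x - (if g ∈ S then 1 else 0) ∈ w.asIdeal := fun g => by
    split_ifs with hg
    · have h := Ideal.smul_mem_pointwise_smul g _ _ hx1
      rw [MulAction.mem_stabilizer_iff.mp hg, smul_sub, smul_one] at h
      exact h
    · rw [sub_zero]
      set P := g⁻¹ • w.asIdeal with hP
      have hPprime : P.IsPrime := by rw [hP]; infer_instance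
      have h3 : (3 : 𝓞 L) ∈ P := by
        rw [hP, Ideal.mem_pointwise_smul_iff_inv_smul_mem, inv_inv,
          ← map_ofNat (algebraMap ℤ (𝓞 L)),
          smul_algebraMap, map_ofNat]
        exact (mem_placesThree hρ).1 hw
      let u : FinPlace L := ⟨P, hPprime, fun e => by rw [e, Ideal.mem_bot] at h3; norm_num at h3⟩
      have hu : u ≠ w := fun e => hg (MulAction.mem_stabilizer_iff.mpr (by
        have e' : g⁻¹ • w.asIdeal = w.asIdeal := congrArg HeightOneSpectrum.asIdeal e
        rw [← e', smul_inv_smul, e']))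
      have h := hx0 u ((mem_placesThree hρ).2 h3) hu
      rwa [show u.asIdeal = g⁻¹ • w.asIdeal from rfl, Ideal.mem_inv_pointwise_smul_iff] at h
  have hall : ((Nat.card S : ℕ) : 𝓞 L) ∈ w.asIdeal := by
    have h3 : ((3 * n : ℤ) : 𝓞 L) ∈ w.asIdeal := by
      rw [Int.cast_mul, Int.cast_ofNat]
      exact w.asIdeal.mul_mem_right _ ((mem_placesThree hρ).1 hw)
    have h := w.asIdeal.sub_mem h3 (Submodule.sum_mem _ fun g (_ : g ∈ Finset.univ) => hterm g)
    rw [hsum, Finset.sum_sub_distrib, sub_sub_cancel, Finset.sum_boole] at h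
    rwa [Nat.card_eq_fintype_card, Fintype.card_subtype]
  refine not_three_dvd_card_stabilizer hρ hw ?_
  by_contra hnd
  obtain ⟨a, c, hac⟩ := Nat.isCoprime_iff_coprime.mpr
    ((Nat.prime_three.coprime_iff_not_dvd).mpr hnd)
  refine w.isPrime.ne_top ((Ideal.eq_top_iff_one _).2 ?_)
  have e : (1 : 𝓞 L) = (a : 𝓞 L) * 3 + (c : 𝓞 L) * (Nat.card S : ℕ) := by exact_mod_cast hac.symm
  rw [e]
  exact add_mem (w.asIdeal.mul_mem_left _ ((mem_placesThree hρ).1 hw))
    (w.asIdeal.mul_mem_left _ hall)

/-- The conductor of the additive character above three. -/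
theorem isConductorTwo_three {w : FinPlace L} (hw : w ∈ placesThree hρ) : IsConductorTwo w where
  trivial _ hy := psiFin_single_eq_one (differentIdeal_le_of_three hρ hw) hy
  nontrivial := by
    refine ⟨algebraMap L _ (3 : L)⁻¹, ?_, fun h => ?_⟩
    · rw [← Places.toPlace_finIncl w, ← placeVal, Places.placeVal_finIncl, map_inv₀,
        valuation_three hρ hw, ← exp_neg, neg_neg]
    set σ := comapPlace (cubicAut hρ : L →+* L)
    have n1 : σ w ≠ w := comapPlace_three_ne hρ hw
    have n2 : σ (σ w) ≠ w :=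
      fun e => n1 ((congrArg σ e).symm.trans (comapPlace_cubicAut_three hρ w))
    have hco : IsCoprime (w.asIdeal ^ 2) ((σ w).asIdeal ^ 2 * (σ (σ w)).asIdeal ^ 2) := by
      refine IsCoprime.mul_right ?_ ?_ <;>
        refine IsCoprime.pow (Ideal.isCoprime_iff_sup_eq.2
          (w.isMaximal.coprime_of_ne (HeightOneSpectrum.isMaximal _) fun e => ?_))
      · exact n1 (HeightOneSpectrum.ext e).symm
      · exact n2 (HeightOneSpectrum.ext e).symm
    obtain ⟨a, ha, x, hx, hax⟩ := Ideal.isCoprime_iff_exists.1 hco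
    have hx1 : x - 1 ∈ w.asIdeal ^ 2 := by
      have e : x - 1 = -a := by rw [← hax]; ring
      exact e ▸ neg_mem ha
    have hothers : ∀ u ∈ placesThree hρ, u ≠ w → x ∈ u.asIdeal ^ 2 := fun u hu hne => by
      rcases eq_or_eq_of_three hρ hw hu with rfl | rfl | rfl
      · exact absurd rfl hne
      · exact Ideal.mul_le_left hx
      · exact Ideal.mul_le_right hx
    have hval : ∀ u : FinPlace L, u ∈ placesThree hρ → ∀ y ∈ u.asIdeal ^ 2,
        u.valuation L (((y : 𝓞 L) : L) * (3 : L)⁻¹) ≤ 1 := fun u hu y hy => by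
      rw [map_mul, map_inv₀, valuation_three hρ hu, NumberField.RingOfIntegers.coe_eq_algebraMap,
        HeightOneSpectrum.valuation_of_algebraMap, ← exp_neg]
      refine (mul_le_mul' ((u.intValuation_le_pow_iff_mem y 2).2 hy) le_rfl).trans ?_
      rw [← exp_add, ← exp_zero, exp_le_exp]
      norm_num
    have hint : single w (algebraMap L _ (3 : L)⁻¹) - finIncl L ((x : L) * (3 : L)⁻¹) ∈
        integralAdele L := Places.mem_integralAdele_iff.2 fun u => by
      rw [placeVal, map_sub]
      rcases eq_or_ne u w with rfl | hu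
      · rw [Places.toPlace_single_same, ← Places.toPlace_finIncl, ← map_sub, ← map_sub]
        show placeVal u _ ≤ 1
        rw [Places.placeVal_finIncl,
          show (3 : L)⁻¹ - (x : L) * (3 : L)⁻¹ = ((1 - x : 𝓞 L) : L) * (3 : L)⁻¹ by
            push_cast; ring]
        exact hval u hw _ (by simpa using neg_mem hx1)
      · rw [Places.toPlace_single_ne hu, zero_sub, Valuation.map_neg]
        show placeVal u _ ≤ 1
        rw [Places.placeVal_finIncl]
        by_cases h3 : u ∈ placesThree hρ
        · exact hval u h3 x (hothers u h3 hu)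
        · rw [map_mul, map_inv₀, show (3 : L) = algebraMap (𝓞 L) L 3 from (map_ofNat _ 3).symm,
            HeightOneSpectrum.valuation_eq_one_iff_notMem _ |>.2
              (fun e => h3 ((mem_placesThree hρ).2 e)), inv_one, mul_one]
          exact u.valuation_le_one x
    rw [Whittaker.psiFin_eq hint, Whittaker.psiGlobal, Complex.exp_eq_one_iff] at h
    obtain ⟨n, hn⟩ := h
    have h2 : (Algebra.trace ℚ L ((x : L) * (3 : L)⁻¹) : ℝ) = ((-n : ℤ) : ℝ) := by
      have h3 := congrArg Complex.im hn
      simp at h3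
      have hpi := Real.pi_ne_zero
      push_cast
      field_simp at h3 ⊢
      linarith
    have h2' : Algebra.trace ℚ L ((x : L) * (3 : L)⁻¹) = ((-n : ℤ) : ℚ) := by exact_mod_cast h2
    refine not_three_dvd_trace hρ hw (Ideal.pow_le_self two_ne_zero hx1)
      (fun u hu hne => Ideal.pow_le_self two_ne_zero (hothers u hu hne)) (n := -n) ?_
    have e : (x : L) = (3 : ℚ) • ((x : L) * (3 : L)⁻¹) := by
      rw [Algebra.smul_def, map_ofNat]; field_simp
    rw [e, map_smul, h2', smul_eq_mul]
    push_cast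
    ring

/-- Units at a place above three are congruent to a sign. -/
theorem near_sign_of_three {w : FinPlace L} (hw : w ∈ placesThree hρ) (x : w.adicCompletion L)
    (hx : Valued.v x = 1) : Valued.v (x - 1) < 1 ∨ Valued.v (x + 1) < 1 := by
  obtain ⟨r, hr⟩ := Places.exists_resLift_near w hx.le
  let f : Fin 3 → Places.Residue w := ![0, 1, -1]
  have h2 : (2 : 𝓞 L) ∉ w.asIdeal := fun h => w.isPrime.ne_top ((Ideal.eq_top_iff_one _).2 (by
    have e : (1 : 𝓞 L) = 3 - 2 := by norm_num
    rw [e]
    exact sub_mem ((mem_placesThree hρ).1 hw) h))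
  have hf : Function.Injective f := by
    have h10 : (1 : Places.Residue w) ≠ 0 := fun e => w.isPrime.ne_top
      ((Ideal.eq_top_iff_one _).2 (Ideal.Quotient.eq_zero_iff_mem.1 e))
    have h12 : (1 : Places.Residue w) ≠ -1 := fun e => h2 (Ideal.Quotient.eq_zero_iff_mem.1 (by
      rw [map_ofNat]; linear_combination e))
    intro i j h
    fin_cases i <;> fin_cases j <;> simp_all [f, eq_comm]
  have hbij := hf.bijective_of_nat_card_le (by rw [card_residue_three hρ hw]; simp)
  obtain ⟨i, rfl⟩ := hbij.2 r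
  have key : ∀ o : 𝓞 L, Ideal.Quotient.mk w.asIdeal o = f i →
      Valued.v (x - algebraMap L (w.adicCompletion L) (o : L)) < 1 := fun o ho => by
    have hd :
        Valued.v (Places.resLift w (f i) - algebraMap L (w.adicCompletion L) (o : L)) < 1 := by
      rw [Places.resLift, ← map_sub, NumberField.RingOfIntegers.coe_eq_algebraMap,
        NumberField.RingOfIntegers.coe_eq_algebraMap, ← map_sub,
        ← NumberField.RingOfIntegers.coe_eq_algebraMap, Places.valued_algebraMap_lt_one,
        ← Ideal.Quotient.eq, Ideal.Quotient.mk_out, ho]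
    rw [← sub_add_sub_cancel x (Places.resLift w (f i))]
    exact (Valuation.map_add _ _ _).trans_lt (max_lt hr hd)
  fin_cases i
  · exact absurd (key 0 (map_zero _)) (by simp [hx])
  · exact Or.inl (by simpa using key 1 (map_one _))
  · exact Or.inr (by simpa using key (-1) (by simp [f]))

/-- The eigenvalues of the dihedral form are invariant under the generator. -/
theorem lam_comapPlace {Ψ : GF3 →* GL (Fin 2) (ℤ√(-2))} {ι : ℤ√(-2) →+* ℂ}
    {lam : Ideal (𝓞 L) → ℂ} (hlam : HasThetaEigenvalues hρ Ψ ι ∅ lam) {v : FinPlace L}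
    (hQ : v ∉ placesTame hρ) (hR : v ∉ placesThree hρ) :
    lam (comapPlace (cubicAut hρ : L →+* L) v).asIdeal = lam v.asIdeal := by
  have := finiteDimensional_fixH hρ.continuous quatGroup
  obtain ⟨p, hp, hpv⟩ : ∃ p : ℕ, p.Prime ∧ (p : 𝓞 L) ∈ v.asIdeal :=
    ⟨_, Places.resPrime_prime v, Places.natCast_mem v⟩
  have hp3 : p ≠ 3 := fun e => hR ((mem_placesThree hρ).2 (by subst e; exact_mod_cast hpv))
  have hun := isUnramAt_of_notMem hρ hp hp3
    fun h => hQ ((mem_placesTame hρ).2 ⟨p, h, hpv⟩)
  obtain ⟨A, hA, hAv⟩ := exists_intIdeal_eq (cubicField ρ) hp v.asIdeal hpv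
  obtain ⟨σ, hσ⟩ := exists_isFrobeniusAt hA hp
  set τ := (cycleLift hρ)⁻¹
  have hB := liesOverPrime_smul hA τ
  have hBv : intIdeal (cubicField ρ) (τ • A) =
      (comapPlace (cubicAut hρ : L →+* L) v).asIdeal := by
    rw [intIdeal_smul, comapPlace_cubicAut, hAv, map_inv]
    rfl
  have hin : ∀ B : ValuationSubring Qbar, B.LiesOverPrime p → ∀ t ∈ B.inertiaSubgroupIn ℚ,
      t ∈ (cubicField ρ).fixingSubgroup := fun B hB t ht =>
    (mem_fixingSubgroup_fixH hρ.continuous).2 (hun B hB t ht ▸ one_mem quatGroup)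
  set f := orderOf (restrictK (cubicField ρ) σ)
  have hq : Final.InQuaternion (ρ σ ^ f) :=
    (restrictK_pow_eq_one_iff hρ.continuous quatGroup σ f).1 (pow_orderOf_eq_one _)
  have hσ' := isFrobeniusAt_conj hA hp hσ τ
  have hord : orderOf (restrictK (cubicField ρ) (τ * σ * τ⁻¹)) = f := by
    rw [map_mul, map_mul, map_inv (restrictK (cubicField ρ)) τ]
    exact MulEquiv.orderOf_eq (MulAut.conj (restrictK (cubicField ρ) τ))
      (restrictK (cubicField ρ) σ)
  have hconj : ρ (τ * σ * τ⁻¹) ^ f = ρ τ * ρ σ ^ f * (ρ τ)⁻¹ := by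
    rw [map_mul, map_mul, map_inv ρ τ, conj_pow]
  have hqB : Final.InQuaternion (ρ (τ * σ * τ⁻¹) ^ f) :=
    hconj ▸ quatGroup_normal.conj_mem _ hq _
  have h1 := hlam p hp (Finset.notMem_empty _) A hA (hun A hA) σ hσ f
    (absNorm_intIdeal (cubicField ρ) hA hp hσ (hin A hA)) hq
  have h2 := hlam p hp (Finset.notMem_empty _) (τ • A) hB (hun _ hB) _ hσ' f
    (by rw [absNorm_intIdeal (cubicField ρ) hB hp hσ' (hin _ hB), hord]) hqB
  have htr : liftTrace Ψ (ρ (τ * σ * τ⁻¹) ^ f) = liftTrace Ψ (ρ σ ^ f) := by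
    rw [hconj, liftTrace_conj]
  rw [hAv] at h1
  rw [hBv] at h2
  rw [h1, h2]
  exact congrArg (fun z => (Real.sqrt p : ℂ) ^ f * ι z) htr

omit [IsGalois ℚ (cubicField ρ)] [NumberField (cubicField ρ)] hρ in
/-- Three is nonzero in the cubic field. -/
theorem three_ne_zero_cubic : (3 : L) ≠ 0 := by norm_num

/-- **The fibre setting of cubic descent.** -/
theorem isFibreSetting_cubic {Ψ : GF3 →* GL (Fin 2) (ℤ√(-2))} {ι : ℤ√(-2) →+* ℂ}
    {lam : Ideal (𝓞 L) → ℂ} (hlam : HasThetaEigenvalues hρ Ψ ι ∅ lam) :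
    IsFibreSetting (cubicAut hρ) (levelI hρ) (placesTame hρ) (placesThree hρ)
      (Units.mk0 (3 : L) three_ne_zero_cubic)⁻¹ (fun v => lam v.asIdeal) where
  three v := by
    simp only [Places.placeEquiv_apply]
    exact comapPlace_cubicAut_three hρ v
  le_iff := levelI_le_iff hρ
  fixed v hv := comapPlace_tame hρ hv
  stable v := by
    rw [Places.placeEquiv_apply, mem_placesThree, mem_placesThree, Places.mem_comapPlace,
      map_ofNat]
  disjoint := disjoint_places hρ
  diff v hQ hR := not_differentIdeal_le hρ hQ hR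
  g_fixed := by rw [Units.val_inv_eq_inv_val, Units.val_mk0, map_inv₀, map_ofNat]
  g_val v hv := by
    rw [Units.val_inv_eq_inv_val, Units.val_mk0, map_inv₀, valuation_three hρ hv, ← exp_neg,
      neg_neg]
  conductor v hv := isConductorTwo_three hρ hv
  residue v hv := near_sign_of_three hρ hv
  lam_stable v hQ hR _ := lam_comapPlace hρ hlam hQ hR

end Fermat.Agent.LT.Rigidity

end
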