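import Fermat.Agent.LT.HeckeAlg.Basic
import Fermat.Agent.LT.Translate.Cusp
import Fermat.Agent.LT.Whittaker.Parseval

/-!
# Hecke functions preserve cusp forms

Acting by a Hecke function on a function on `Y U` preserves continuity, boundedness, the radial
and spherical eigen-equations and the vanishing of constant terms.
-/

set_option autoImplicit false

noncomputable section

open MeasureTheory
open NumberField (InfinitePlace)

namespace Fermat.Agent.LT.Rigidity

variable {F : Type*} [Field F] [NumberField F] {U : Level F} (h : HeckeFn U) {φ : Y U → ℂ}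

theorem continuous_op (hc : ∀ c, Continuous fun P => φ (P, c)) (c : GLFin F ⧸ U.toSubgroup) :
    Continuous fun P => h.op φ (P, c) := by
  simp only [HeckeFn.op_eq_sum]
  exact continuous_finsetSum _ fun b _ => continuous_const.mul (hc b)

theorem bounded_op (hb : ∃ C : ℝ, ∀ y, ‖φ y‖ ≤ C) : ∃ C : ℝ, ∀ y, ‖h.op φ y‖ ≤ C := by
  classical
  obtain ⟨C, hC⟩ := hb
  set c₁ : GLFin F ⧸ U.toSubgroup := QuotientGroup.mk 1
  refine ⟨(∑ b ∈ h.row c₁, ‖h.kernel c₁ b‖) * C, fun ⟨P, c⟩ => ?_⟩
  induction c using QuotientGroup.induction_on with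
  | H x =>
  have hx : (QuotientGroup.mk x : GLFin F ⧸ U.toSubgroup) = x • c₁ := by
    show _ = QuotientGroup.mk (x * 1)
    rw [mul_one]
  rw [HeckeFn.op_eq_act, hx, HeckeFn.act_congr_smul, HeckeFn.act_eq_sum, Finset.sum_mul]
  refine (norm_sum_le _ _).trans (Finset.sum_le_sum fun b _ => ?_)
  rw [norm_mul]
  exact mul_le_mul_of_nonneg_left (hC _) (norm_nonneg _)

theorem isRadialEigen_op (hc : ∀ c, Continuous fun P => φ (P, c)) (hr : IsRadialEigen φ) :
    IsRadialEigen (h.op φ) := by
  rintro k ⟨P, c⟩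
  calc k.op (h.op φ) (P, c)
      = ∫ Q, ∑ b ∈ h.row c, h.kernel c b * (k.weight P Q • φ (Q, b)) ∂infVol F := by
        simp only [RadialKernel.op, HeckeFn.op_eq_sum, Finset.smul_sum, mul_smul_comm]
    _ = ∑ b ∈ h.row c, h.kernel c b * k.op φ (P, b) :=
        (integral_finsetSum _ fun b _ => (H3.integrable_prod_profile_smul k.continuous
          k.hasCompactSupport P (hc b)).const_mul _).trans
          (Finset.sum_congr rfl fun b _ => integral_const_mul _ _)
    _ = (k.scalar : ℂ) * h.op φ (P, c) := by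
        rw [HeckeFn.op_eq_sum, Finset.mul_sum]
        exact Finset.sum_congr rfl fun b _ => by rw [hr k (P, b)]; ring

open Classical in
theorem eigen_op (hφ : Whittaker.IsCuspEigen φ) (w : InfinitePlace F) (y : Y U) (A : ℝ)
    (hA : 0 < A) :
    ∫ Q, (Real.exp (-(A * H3.cdist (y.1 w) Q)) : ℂ) *
        h.op φ (Function.update y.1 w Q, y.2) ∂H3.vol
      = (Whittaker.sphEigen A : ℂ) * h.op φ y := by
  obtain ⟨C, hC⟩ := hφ.bounded
  simp only [HeckeFn.op_eq_sum, Finset.mul_sum, mul_left_comm _ (h.kernel _ _)]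
  rw [integral_finsetSum]
  · refine Finset.sum_congr rfl fun b _ => ?_
    rw [integral_const_mul, hφ.eigen w (y.1, b) A hA]
  · intro b _
    refine Integrable.const_mul ?_ _
    simp only [mul_comm (Complex.ofReal _)]
    exact (H3.integrable_exp_neg_cdist hA (y.1 w)).ofReal.bdd_mul
      ((hφ.continuous b).comp (continuous_const.update w continuous_id)).aestronglyMeasurable
      (Filter.Eventually.of_forall fun Q => hC _)

/-- Hecke images of cusp eigenfunctions have vanishing constant term at the cusps. -/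
theorem zeroConst_op (hφ : Whittaker.IsCuspEigen φ) (c : GLFin F ⧸ U.toSubgroup)
    (t : InfinitePlace F → ℝ) (b : Module.Basis (Fin (Module.finrank ℚ F)) ℚ F)
    (ht : ∀ w, 0 < t w) (hb : ∀ i, glIncl F (unip (b i)) • c = c) :
    ∫ u in {u : Fin (Module.finrank ℚ F) → ℝ | ∀ i, u i ∈ Set.Ioc (0 : ℝ) 1},
      h.op φ (Whittaker.ptAt (fun w => ∑ i, (u i : ℂ) * w.embedding (b i)) t, c) = 0 := by
  classical
  choose m hm hmem using fun (p : GLFin F ⧸ U.toSubgroup) (i : Fin (Module.finrank ℚ F)) =>
    Translate.exists_nsmul_mem_stabAdd (b i) p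
  set S := h.row c
  set N := ∏ p ∈ S ×ˢ (Finset.univ : Finset (Fin (Module.finrank ℚ F))), m p.1 p.2
  have hN : 0 < N := Finset.prod_pos fun p _ => hm _ _
  have hdvd : ∀ p ∈ S, ∀ i, m p i ∣ N := fun p hp i =>
    Finset.dvd_prod_of_mem (fun q : _ × _ => m q.1 q.2) (a := (p, i))
      (Finset.mem_product.mpr ⟨hp, Finset.mem_univ i⟩)
  have hNu : ∀ _ : Fin (Module.finrank ℚ F), IsUnit (N : ℚ) := fun _ =>
    isUnit_iff_ne_zero.mpr (Nat.cast_ne_zero.mpr hN.ne')
  set bN := b.isUnitSMul hNu
  have hbN : ∀ i, bN i = N • b i := fun i => by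
    rw [Module.Basis.isUnitSMul_apply, Nat.cast_smul_eq_nsmul]
  have hemb : ∀ u, Whittaker.boxEmb bN u = Whittaker.boxEmb b ((N : ℝ) • u) := fun u => by
    funext w
    rw [Whittaker.boxEmb_apply, Whittaker.boxEmb_apply]
    refine Finset.sum_congr rfl fun i _ => ?_
    rw [hbN, map_nsmul, nsmul_eq_mul, Pi.smul_apply, smul_eq_mul]
    push_cast
    ring
  obtain ⟨C, hC⟩ := bounded_op h hφ.bounded
  have hper := Whittaker.torusFn_periodic b (h.op_isAutomorphic hφ.automorphic) hb ht
  have hcont : Continuous (Whittaker.torusFn b (h.op φ) c t) :=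
    (continuous_op h hφ.continuous c).comp ((Whittaker.continuous_ptAt ht).comp
      (LinearMap.continuous_of_finiteDimensional (Whittaker.boxEmb b)))
  show ∫ u in Whittaker.box (Fin (Module.finrank ℚ F)),
    Whittaker.torusFn b (h.op φ) c t u = 0
  rw [← Whittaker.integral_box_comp_smul hper hcont (fun u => hC _) hN]
  simp only [Whittaker.torusFn, ← hemb, HeckeFn.op_eq_sum]
  show ∫ u in Whittaker.box (Fin (Module.finrank ℚ F)),
    ∑ p ∈ S, h.kernel c p * φ (Whittaker.ptAt (Whittaker.boxEmb bN u) t, p) = 0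
  clear_value S
  rw [integral_finsetSum]
  · refine Finset.sum_eq_zero fun p hp => ?_
    rw [integral_const_mul]
    refine mul_eq_zero_of_right _ ?_
    exact hφ.zeroConst p t bN ht fun i => by
      rw [hbN]; exact hmem p i N (hdvd p hp i)
  · intro p _
    obtain ⟨C', hC'⟩ := hφ.bounded
    have := Whittaker.isFiniteMeasure_box (ι := Fin (Module.finrank ℚ F))
    exact (Integrable.of_bound ((hφ.continuous p).comp ((Whittaker.continuous_ptAt ht).comp
      (LinearMap.continuous_of_finiteDimensional (Whittaker.boxEmb bN)))).aestronglyMeasurable C'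
      (Filter.Eventually.of_forall fun u => hC' _)).const_mul _

/-- A Hecke function sends cusp eigenfunctions to cusp eigenfunctions. -/
theorem isCuspEigen_op (hφ : Whittaker.IsCuspEigen φ) : Whittaker.IsCuspEigen (h.op φ) where
  automorphic := h.op_isAutomorphic hφ.automorphic
  continuous := continuous_op h hφ.continuous
  bounded := bounded_op h hφ.bounded
  eigen := eigen_op h hφ
  zeroConst := zeroConst_op h hφ

/-- A Hecke function sends cusp forms to cusp forms. -/
theorem isSphericalCuspForm_op (hφ : IsSphericalCuspForm φ) : IsSphericalCuspForm (h.op φ) :=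
  ⟨isCuspEigen_op h hφ.cuspEigen, isRadialEigen_op h hφ.cuspEigen.continuous hφ.radial⟩

end Fermat.Agent.LT.Rigidity

end
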