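import Fermat.Agent.LT.Rigidity.Three
import Fermat.Agent.LT.Rigidity.HeckeCusp
import Fermat.Agent.LT.HeckeAlg.Support
import Fermat.Agent.LT.Translate.Hecke

/-!
# The fibre of the dihedral form and its stability

`InFibre` collects what the target system imposes on a function of level `ofIdeal I`; it is stable
under the automorphism and under Hecke functions supported at a tame place.
-/

set_option autoImplicit false

noncomputable section

open WithZero
open scoped NumberField

namespace Fermat.Agent.LT.Rigidity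

open Places Whittaker

variable {F : Type*} [Field F] [NumberField F]

/-- The arithmetic of the fibre: `Q` tame places fixed by `σ`, `R` places above three. -/
structure IsFibreSetting (σ : F ≃+* F) (I : Ideal (𝓞 F)) (Q R : Finset (FinPlace F)) (g : Fˣ)
    (lam : FinPlace F → ℂ) : Prop where
  three : ∀ v, placeEquiv σ (placeEquiv σ (placeEquiv σ v)) = v
  le_iff : ∀ v : FinPlace F, I ≤ v.asIdeal ↔ v ∈ Q ∨ v ∈ R
  fixed : ∀ v ∈ Q, placeEquiv σ v = v
  stable : ∀ v, placeEquiv σ v ∈ R ↔ v ∈ R
  disjoint : Disjoint Q R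
  diff : ∀ v, v ∉ Q → v ∉ R → ¬ differentIdeal ℤ (𝓞 F) ≤ v.asIdeal
  g_fixed : σ (g : F) = (g : F)
  g_val : ∀ v ∈ R, v.valuation F (g : F) = exp (2 : ℤ)
  conductor : ∀ v ∈ R, IsConductorTwo v
  residue : ∀ v ∈ R, ∀ x : v.adicCompletion F, Valued.v x = 1 →
    Valued.v (x - 1) < 1 ∨ Valued.v (x + 1) < 1
  lam_stable : ∀ v, v ∉ Q → v ∉ R → placeEquiv σ v ≠ v → lam (placeEquiv σ v) = lam v

/-- A Hecke function acting through finitely many translations trivial away from `w`. -/
def IsSupportedAt {U : Level F} (w : FinPlace F) (T : HeckeFn U) : Prop :=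
  ∃ (n : ℕ) (k : Fin n → ℂ) (g : Fin n → GLFin F), (∀ i, ∀ v, v ≠ w → glPlace v (g i) = 1) ∧
    ∀ (φ : Y U → ℂ) P (x : GLFin F),
      T.op φ (P, QuotientGroup.mk x) = ∑ i, k i * φ (P, QuotientGroup.mk (x * g i))

theorem comm_of_trivial {w v : FinPlace F} (hvw : v ≠ w) {g h : GLFin F}
    (hg : ∀ u, u ≠ w → glPlace u g = 1) (hh : glPlace w h = 1) : h * g = g * h := by
  refine gl_ext fun u => ?_
  rw [map_mul, map_mul]
  rcases eq_or_ne u w with rfl | hu
  · rw [hh, one_mul, mul_one]
  · rw [hg u hu, one_mul, mul_one]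

theorem glPlace_dia (v : FinPlace F) (e : (FinAdele F)ˣ) (he : toPlace v (e : FinAdele F) = 1) :
    glPlace v (dia e) = 1 := by
  apply Units.ext
  ext i j
  rw [glPlace_apply]
  fin_cases i <;> fin_cases j <;> simp [dia, he]

/-- A unipotent with trivial component at `v` is trivial at `v`. -/
theorem glPlace_unip (v : FinPlace F) (u : FinAdele F) (hu : toPlace v u = 0) :
    glPlace v (Fermat.Agent.LT.unip u) = 1 := by
  apply Units.ext
  ext i j
  rw [glPlace_apply]
  fin_cases i <;> fin_cases j <;> simp [Fermat.Agent.LT.unip, hu]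

omit [NumberField F] in
/-- The action on ideles fixes the global ideles fixed by `σ`. -/
theorem idelMap_globalIdele (σ : F ≃+* F) (x : Fˣ) (h : σ (x : F) = (x : F)) :
    idelMap σ (globalIdele F x) = globalIdele F x := by
  ext
  rw [idelMap_val]
  show finMap (σ : F →+* F) (finIncl F (x : F)) = finIncl F (x : F)
  rw [finMap_finIncl]
  exact congrArg (finIncl F) h

variable {I : Ideal (𝓞 F)} {hI : ∃ N : ℕ, 0 < N ∧ (N : 𝓞 F) ∈ I} (σ : F ≃+* F)
  (Q R : Finset (FinPlace F)) (lam : FinPlace F → ℂ) (s : ℂ)

/-- The conditions of the target system. -/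
structure InFibre (φ : Y (Level.ofIdeal F I hI) → ℂ) : Prop where
  cusp : IsSphericalCuspForm φ
  hecke : ∀ v, v ∉ Q → v ∉ R → placeEquiv σ v ≠ v →
    ∀ y, doubleOp (diagIdele F (piUnit v)) φ y = lam v * φ y
  three : ∀ w ∈ R, IsThreeFixed (Level.ofIdeal F I hI) w s φ

variable {σ Q R lam s}

/-- The level is good outside `Q` and `R`. -/
theorem isGoodAt_of_notMem {g : Fˣ} (H : IsFibreSetting σ I Q R g lam) {v : FinPlace F}
    (hQ : v ∉ Q) (hR : v ∉ R) : IsGoodAt (Level.ofIdeal F I hI) v :=
  isGoodAt_ofIdeal hI fun h => ((H.le_iff v).mp h).elim hQ hR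

/-- The double coset of a uniformiser is the Hecke set. -/
theorem heckeSet_eq {U : Level F} (v : FinPlace F) :
    doubleSet U (diagIdele F (piUnit v)) = heckeSet U v :=
  doubleSet_diagIdele (by rw [mul_inv_cancel, dia_one]; exact one_mem _)

variable [NumberField.IsTotallyComplex F] {g : Fˣ}

omit [NumberField.IsTotallyComplex F] in
/-- **Stability under tame Hecke functions.** -/
theorem InFibre.op (H : IsFibreSetting σ I Q R g lam) {w : FinPlace F} (hw : w ∈ Q)
    {T : HeckeFn (Level.ofIdeal F I hI)} (hT : IsSupportedAt w T)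
    {φ : Y (Level.ofIdeal F I hI) → ℂ} (h : InFibre σ Q R lam s φ) :
    InFibre σ Q R lam s (T.op φ) := by
  obtain ⟨n, k, t, ht, hop⟩ := hT
  refine ⟨isSphericalCuspForm_op T h.cusp, fun v hQ hR hσ => ?_, fun u hu => ?_⟩
  · have hvw : v ≠ w := fun e => hQ (e ▸ hw)
    have hgood := isGoodAt_of_notMem (hI := hI) H hQ hR
    let _ := Fintype.ofFinite (Residue v)
    have key : ∀ ψ : Y (Level.ofIdeal F I hI) → ℂ, ∀ P (x : GLFin F),
        doubleOp (diagIdele F (piUnit v)) ψ (P, QuotientGroup.mk x) =
          ∑ r : Option (Residue v), ψ (P, QuotientGroup.mk (x * localGL v (rep v r))) :=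
      fun ψ P x => by
        rw [Places.doubleOp_eq hgood (heckeSet_eq v) ψ]
        exact heckeAt_op hgood ψ P x
    rintro ⟨P, c⟩
    induction c using QuotientGroup.induction_on with
    | H x =>
    rw [key, hop, Finset.mul_sum]
    simp only [hop]
    rw [Finset.sum_comm]
    refine Finset.sum_congr rfl fun i _ => ?_
    rw [← Finset.mul_sum, mul_left_comm, ← h.hecke v hQ hR hσ, key]
    congr 1
    refine Finset.sum_congr rfl fun r _ => ?_
    rw [mul_assoc x, comm_of_trivial hvw (ht i) (glPlace_localGL_ne hvw.symm _), ← mul_assoc]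
  · have huw : u ≠ w := fun e => Finset.disjoint_left.mp H.disjoint hw (e ▸ hu)
    obtain ⟨hnear, hflip, hunip, hcusp⟩ := h.three u hu
    have comm : ∀ (x b : GLFin F), glPlace w b = 1 → ∀ i, x * b * t i = x * t i * b :=
      fun x b hb i => by
        rw [mul_assoc, comm_of_trivial huw (ht i) hb, ← mul_assoc]
    refine ⟨fun P x e he hoff => ?_, fun P x e he hoff => ?_, fun P x y hy hoff => ?_,
      fun P x => ?_⟩
    · simp only [hop]
      refine Finset.sum_congr rfl fun i _ => ?_
      rw [comm x _ (glPlace_dia w e (hoff w huw.symm)), hnear P _ e he hoff]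
    · simp only [hop]
      rw [Finset.mul_sum]
      refine Finset.sum_congr rfl fun i _ => ?_
      rw [comm x _ (glPlace_dia w e (hoff w huw.symm)), hflip P _ e he hoff]
      ring
    · simp only [hop]
      refine Finset.sum_congr rfl fun i _ => ?_
      rw [comm x _ (glPlace_unip w y (hoff w huw.symm)), hunip P _ y hy hoff]
    · simp only [hop]
      rw [Finset.sum_comm]
      refine Finset.sum_eq_zero fun i _ => ?_
      rw [← Finset.mul_sum]
      refine mul_eq_zero_of_right _ ?_
      rw [← hcusp P (x * t i)]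
      refine Finset.sum_congr rfl fun j _ => ?_
      rw [comm x _ (glPlace_unip w _ ?_)]
      obtain ⟨z, -, hz⟩ := threeLift_eq_single u j
      rw [hz, toPlace_single_ne huw.symm]

variable (hU : ∀ x ∈ (Level.ofIdeal F I hI).toSubgroup,
  glFinMap (σ : F →+* F) x ∈ (Level.ofIdeal F I hI).toSubgroup)

omit [NumberField F] [NumberField.IsTotallyComplex F] in
theorem glFinMap_dia (e : (FinAdele F)ˣ) :
    glFinMap (σ : F →+* F) (dia e) = dia (idelMap σ e) :=
  map_dia _ e

omit [NumberField F] [NumberField.IsTotallyComplex F] in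
/-- The action of `σ` on unipotents. -/
theorem glFinMap_unip (u : FinAdele F) :
    glFinMap (σ : F →+* F) (Fermat.Agent.LT.unip u) =
      Fermat.Agent.LT.unip (finMap (σ : F →+* F) u) :=
  map_unip _ u

omit [NumberField.IsTotallyComplex F] in
/-- **Stability under the automorphism.** -/
theorem InFibre.galY (H : IsFibreSetting σ I Q R g lam)
    (hbij : Function.Bijective (galFin σ (Level.ofIdeal F I hI) hU))
    (hinv : ∀ x : GLFin F, glFinMap (σ : F →+* F) x ∈ (Level.ofIdeal F I hI).toSubgroup →
      x ∈ (Level.ofIdeal F I hI).toSubgroup)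
    (hsurj : Function.Surjective (glFinMap (σ : F →+* F)))
    {φ : Y (Level.ofIdeal F I hI) → ℂ}
    (hcuspσ : IsSphericalCuspForm fun y => φ (Fermat.Agent.LT.galY σ _ hU y))
    (h : InFibre σ Q R lam s φ) :
    InFibre σ Q R lam s fun y => φ (Fermat.Agent.LT.galY σ _ hU y) := by
  refine ⟨hcuspσ, fun v hQ hR hσ => ?_, fun w hw => ?_⟩
  · -- the Hecke operator at `v` becomes the one at the place `u` with `σ u = v`
    set u := (placeEquiv σ).symm v
    have huv : placeEquiv σ u = v := (placeEquiv σ).apply_symm_apply v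
    have huσ : placeEquiv σ u ≠ u := fun e => hσ (by rw [← huv, e, e])
    have huQ : u ∉ Q := fun e => huσ (H.fixed u e)
    have huR : u ∉ R := fun e => hR (huv ▸ (H.stable u).mpr e)
    have hlam : lam v = lam u := by rw [← huv, H.lam_stable u huQ huR huσ]
    set a := idelMap σ (piUnit v)
    have hset : doubleSet (Level.ofIdeal F I hI) (diagIdele F a) =
        heckeSet (Level.ofIdeal F I hI) u := by
      refine doubleSet_diagIdele (dia_mem_ofIdeal _ (fun z => ?_) fun z hz => ?_)
      · rw [Units.val_mul, placeVal_mul, placeVal_units_inv, placeVal_idelMap]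
        rcases eq_or_ne z u with rfl | hz
        · rw [huv, placeVal_piUnit_same, placeVal_piUnit_same, mul_inv_cancel₀ exp_ne_zero]
        · rw [placeVal_piUnit_ne (fun e => hz ((placeEquiv σ).injective (e.trans huv.symm))),
            placeVal_piUnit_ne hz, inv_one, one_mul]
      · have hzu : z ≠ u := fun e => ((H.le_iff z).mp hz).elim (e ▸ huQ) (e ▸ huR)
        rw [Units.val_mul, map_mul, toPlace_units_inv', toPlace_piUnit_ne hzu, inv_one, mul_one,
          idelMap_val]
        refine (toPlace_finMap_congr σ z (y := 1) ?_).trans (by rw [map_one, map_one])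
        rw [toPlace_piUnit_ne (fun e => hzu ((placeEquiv σ).injective (e.trans huv.symm))), map_one]
    have hmap : glFinMap (σ : F →+* F) (diagIdele F (piUnit v)) = diagIdele F a :=
      glFinMap_dia _
    have hmem : ∀ x, x ∈ doubleSet (Level.ofIdeal F I hI) (diagIdele F (piUnit v)) ↔
        glFinMap (σ : F →+* F) x ∈ doubleSet (Level.ofIdeal F I hI) (diagIdele F a) := by
      intro x
      constructor
      · rintro ⟨p, hp, q, hq, rfl⟩
        exact ⟨_, hU p hp, _, hU q hq, by rw [map_mul, map_mul, hmap]⟩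
      · rintro ⟨p, hp, q, hq, e⟩
        obtain ⟨p', rfl⟩ := hsurj p
        obtain ⟨q', rfl⟩ := hsurj q
        refine ⟨p', hinv p' hp, (p' * diagIdele F (piUnit v))⁻¹ * x, ?_, by group⟩
        refine hinv _ ?_
        rw [map_mul, map_inv, map_mul, hmap, e]
        simpa [mul_assoc] using hq
    rintro ⟨P, c⟩
    rw [hlam]
    show doubleOp (diagIdele F (piUnit v)) (fun y => φ (Fermat.Agent.LT.galY σ _ hU y)) (P, c) =
      lam u * φ (galInf σ P, galFin σ _ hU c)
    rw [← h.hecke u huQ huR huσ, HeckeFn.doubleOp_eq_op, HeckeFn.doubleOp_eq_op,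
      show HeckeFn.double (Level.ofIdeal F I hI) (diagIdele F (piUnit u)) =
        HeckeFn.double (Level.ofIdeal F I hI) (diagIdele F a) from
        HeckeFn.ext_toFun fun x => by
          classical
          exact if_congr (by rw [hset, heckeSet_eq]) rfl rfl]
    refine finsum_eq_of_bijective _ hbij fun b => ?_
    refine QuotientGroup.induction_on b fun y => QuotientGroup.induction_on c fun x => ?_
    show (HeckeFn.double _ _).kernel (QuotientGroup.mk x) (QuotientGroup.mk y) *
        φ (galInf σ P, galFin σ _ hU (QuotientGroup.mk y)) =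
      (HeckeFn.double _ _).kernel (galFin σ _ hU (QuotientGroup.mk x))
        (galFin σ _ hU (QuotientGroup.mk y)) * φ (galInf σ P, galFin σ _ hU (QuotientGroup.mk y))
    congr 1
    rw [galFin_mk, galFin_mk, HeckeFn.kernel_mk, HeckeFn.kernel_mk, ← map_inv, ← map_mul]
    classical
    exact if_congr (hmem _) rfl rfl
  · set u := (placeEquiv σ).symm w
    have huw : placeEquiv σ u = w := (placeEquiv σ).apply_symm_apply w
    obtain ⟨hnear, hflip, hunip, hcusp⟩ := h.three u ((H.stable u).mp (huw ▸ hw))
    have hoffσ : ∀ (x y : FinAdele F), (∀ z, z ≠ w → toPlace z x = toPlace z y) →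
        ∀ z, z ≠ u → toPlace z (finMap (σ : F →+* F) x) = toPlace z (finMap (σ : F →+* F) y) :=
      fun x y hxy z hz => toPlace_finMap_congr σ z
        (hxy _ fun e => hz ((placeEquiv σ).injective (e.trans huw.symm)))
    have hval : ∀ x : FinAdele F, placeVal u (finMap (σ : F →+* F) x) = placeVal w x := fun x => by
      rw [placeVal_finMap, ← placeEquiv_apply, huw]
    refine ⟨fun P x e he hoff => ?_, fun P x e he hoff => ?_, fun P x y hy hoff => ?_,
      fun P x => ?_⟩
    · show φ (galInf σ P, galFin σ _ hU (QuotientGroup.mk (x * dia e))) = _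
      rw [galFin_mk, map_mul, glFinMap_dia]
      refine hnear _ _ _ ?_ fun z hz => ?_
      · rw [idelMap_val, ← map_one (finMap (σ : F →+* F)), ← map_sub, hval]
        exact he
      · rw [idelMap_val, hoffσ _ 1 (fun z' hz' => by rw [hoff z' hz', map_one]) z hz, map_one,
          map_one]
    · show φ (galInf σ P, galFin σ _ hU (QuotientGroup.mk (x * dia e))) = _
      rw [galFin_mk, map_mul, glFinMap_dia]
      refine hflip _ _ _ ?_ fun z hz => ?_
      · rw [idelMap_val, ← map_one (finMap (σ : F →+* F)), ← map_add, hval]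
        exact he
      · rw [idelMap_val, hoffσ _ 1 (fun z' hz' => by rw [hoff z' hz', map_one]) z hz, map_one,
          map_one]
    · show φ (galInf σ P, galFin σ _ hU (QuotientGroup.mk (x * Fermat.Agent.LT.unip y))) = _
      rw [galFin_mk, map_mul, glFinMap_unip]
      refine hunip _ _ _ ?_ fun z hz => ?_
      · rw [hval]; exact hy
      · rw [hoffσ _ 0 (fun z' hz' => by rw [hoff z' hz', map_zero]) z hz, map_zero, map_zero]
    · show ∑ j : Fin 3,
        φ (galInf σ P, galFin σ _ hU
          (QuotientGroup.mk (x * Fermat.Agent.LT.unip (threeLift w j)))) = 0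
      have hlift : ∀ j, finMap (σ : F →+* F) (threeLift w j) = threeLift u j := by
        have hid : finMap (σ : F →+* F) (idem w) = idem u := by
          rw [← huw, placeEquiv_apply, finMap_idem]
        intro j
        fin_cases j <;> simp [threeLift, hid]
      simp only [galFin_mk, map_mul, glFinMap_unip, hlift]
      exact hcusp _ _

end Fermat.Agent.LT.Rigidity

end
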