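import Fermat.Agent.LT.Setup.Level
import Fermat.Agent.LT.Places.Idele
import Fermat.Agent.LT.Whittaker.Adele

/-!
# Strong approximation for `SL₂` and representatives of the finite cosets

Every element of determinant one is a product of four adelic unipotents, and a product of
unipotents lies in `GL₂(F)` times every principal congruence subgroup.  Hence every coset of a
level is `γ • (dia a)`.
-/

set_option autoImplicit false

noncomputable section

open scoped NumberField Matrix

namespace Fermat.Agent.LT.Rigidity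

open Places Whittaker

variable {F : Type*} [Field F] [NumberField F]

/-- A principal congruence subgroup is carried into any other by conjugation, at deeper level. -/
theorem exists_conj_principal (g : GLFin F) {M : ℕ} (hM : 0 < M) :
    ∃ M' : ℕ, 0 < M' ∧ ∀ k, IsPrincipal F M' k → IsPrincipal F M (g⁻¹ * k * g) := by
  obtain ⟨D, hD, h⟩ := Reduction.exists_denominator (F := F)
    (ι := (Fin 2 × Fin 2) ⊕ (Fin 2 × Fin 2))
    (Sum.elim (fun p => g.val p.1 p.2) fun p => (g⁻¹).val p.1 p.2)
  refine ⟨M * D * D, by positivity, fun k hk => ?_⟩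
  have key : ∀ k : GLFin F, IsPrincipal F (M * D * D) k → ∀ i j, ∃ z ∈ integralAdele F,
      (g⁻¹ * k * g).val i j =
        (1 : Matrix (Fin 2) (Fin 2) (FinAdele F)) i j + (M : FinAdele F) * z := by
    intro k hk i j
    choose a ha e using fun i j => hk.left i j
    have hk' : k.val = 1 + Matrix.of fun i j => ((M * D * D : ℕ) : FinAdele F) * a i j :=
      Matrix.ext fun i j => by rw [e i j]; simp
    refine ⟨∑ l, (∑ m, ((D : FinAdele F) * (g⁻¹).val i m) * a m l) *
      ((D : FinAdele F) * g.val l j),
      sum_mem fun l _ => mul_mem (sum_mem fun m _ => mul_mem (h (.inr (i, m))) (ha m l))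
        (h (.inl (l, j))), ?_⟩
    rw [Units.val_mul, Units.val_mul, hk', mul_add, mul_one, add_mul, ← Units.val_mul,
      inv_mul_cancel, Units.val_one, Matrix.add_apply]
    simp only [Matrix.mul_apply, Fin.sum_univ_two, Matrix.of_apply]
    push_cast
    ring
  intro i j
  obtain ⟨a, ha, e⟩ := key k hk i j
  obtain ⟨b, hb, e'⟩ := key k⁻¹ hk.inv i j
  refine ⟨a, ha, b, hb, e, ?_⟩
  rw [show (g⁻¹ * k * g)⁻¹ = g⁻¹ * k⁻¹ * g by group]
  exact e'

theorem isPrincipal_unip {M : ℕ} {o : FinAdele F} (ho : o ∈ integralAdele F) :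
    IsPrincipal F M (unip ((M : FinAdele F) * o)) := by
  have e : ∀ u : FinAdele F, ∀ i j, (unip u : GLFin F).val i j =
      (1 : Matrix (Fin 2) (Fin 2) (FinAdele F)) i j + if i = 0 ∧ j = 1 then u else 0 := by
    intro u i j
    fin_cases i <;> fin_cases j <;> simp [unip]
  intro i j
  refine ⟨if i = 0 ∧ j = 1 then o else 0, by split <;> simp [ho, zero_mem],
    if i = 0 ∧ j = 1 then -o else 0, by split <;> simp [ho, zero_mem], ?_, ?_⟩
  · rw [e]; split <;> simp
  · rw [unip, ← AddChar.map_neg_eq_inv]
    refine (e _ i j).trans ?_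
    split <;> simp
    ring

/-- `x ∈ GL₂(F) · K(M)` for all `M`. -/
def Approx (x : GLFin F) : Prop :=
  ∀ M : ℕ, 0 < M → ∃ γ : GL (Fin 2) F, IsPrincipal F M ((glIncl F γ)⁻¹ * x)

theorem approx_one : Approx (1 : GLFin F) := fun M _ => ⟨1, by simpa using IsPrincipal.one M⟩

theorem Approx.glIncl_mul {x : GLFin F} (h : Approx x) (δ : GL (Fin 2) F) :
    Approx (glIncl F δ * x) := fun M hM => by
  obtain ⟨γ, hγ⟩ := h M hM
  refine ⟨δ * γ, ?_⟩
  rwa [map_mul, mul_inv_rev, mul_assoc, inv_mul_cancel_left]

/-- `Approx` is stable under left multiplication by unipotents. -/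
theorem Approx.unip_mul {x : GLFin F} (h : Approx x) (u : FinAdele F) : Approx (unip u * x) :=
  fun M hM => by
  obtain ⟨γ, hγ⟩ := h M hM
  obtain ⟨M', hM', hconj⟩ := exists_conj_principal (glIncl F γ) hM
  obtain ⟨β, o, ho, rfl⟩ := Reduction.exists_finIncl_add M' hM' u
  refine ⟨unip β * γ, ?_⟩
  have := (hconj _ (isPrincipal_unip ho)).mul hγ
  rw [map_mul, glIncl_unip]
  simp only [unip, AddChar.map_add_eq_mul]
  convert this using 1
  group

variable (F) in
/-- The Weyl element. -/
def weyl : GL (Fin 2) F where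
  val := !![0, 1; 1, 0]
  inv := !![0, 1; 1, 0]
  val_inv := by ext i j; fin_cases i <;> fin_cases j <;> simp [Matrix.mul_apply, Fin.sum_univ_two]
  inv_val := by ext i j; fin_cases i <;> fin_cases j <;> simp [Matrix.mul_apply, Fin.sum_univ_two]

omit [NumberField F] in
theorem glIncl_weyl_val : (glIncl F (weyl F)).val = !![0, 1; 1, 0] := by
  ext i j; fin_cases i <;> fin_cases j <;> simp [glIncl, weyl]

/-- The lower unipotent. -/
def lowerUnip (u : FinAdele F) : GLFin F := glIncl F (weyl F) * unip u * glIncl F (weyl F)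

omit [NumberField F] in
theorem lowerUnip_val (u : FinAdele F) : (lowerUnip u).val = !![1, 0; u, 1] := by
  rw [lowerUnip, Units.val_mul, Units.val_mul, glIncl_weyl_val]
  ext i j
  fin_cases i <;> fin_cases j <;> simp [unip, Matrix.mul_apply, Fin.sum_univ_two]

theorem Approx.lowerUnip_mul {x : GLFin F} (h : Approx x) (u : FinAdele F) :
    Approx (lowerUnip u * x) := by
  rw [lowerUnip, mul_assoc, mul_assoc]
  exact ((h.glIncl_mul _).unip_mul u).glIncl_mul _

theorem det_toPlace (v : FinPlace F) (h : GLFin F) (hdet : h.val.det = 1) :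
    toPlace v (h.val 0 0) * toPlace v (h.val 1 1) -
      toPlace v (h.val 0 1) * toPlace v (h.val 1 0) = 1 := by
  rw [← map_mul, ← map_mul, ← map_sub, ← Matrix.det_fin_two, hdet, map_one]

/-- A left lower unipotent makes the lower left entry a unit. -/
theorem exists_isUnit_shift (h : GLFin F) (hdet : h.val.det = 1) :
    ∃ x : FinAdele F, IsUnit (h.val 1 0 + x * h.val 0 0) := by
  classical
  set a := h.val 0 0
  set b := h.val 0 1
  set c := h.val 1 0
  set d := h.val 1 1
  let f : ∀ v : FinPlace F, v.adicCompletion F := fun v =>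
    if Valued.v (toPlace v c) = 1 ∨ toPlace v a = 0 then 0
    else if toPlace v c + toPlace v a = 0 then 0 else 1
  have hfin : {v | 1 < Valued.v (f v)}.Finite := by
    refine Set.finite_empty.subset fun v hv => absurd hv ?_
    refine fun h1 : 1 < Valued.v (f v) => absurd h1 (not_lt.mpr ?_)
    simp only [f]
    split_ifs <;> simp
  refine ⟨adeleOf f hfin, isUnit_of_placeVal (fun v => ?_) ?_⟩
  · rw [map_add, map_mul, toPlace_adeleOf]
    simp only [f]
    split_ifs with h1 h2
    · rcases h1 with h1 | h1
      · intro h0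
        rw [zero_mul, add_zero] at h0
        simp [h0] at h1
      · intro h0
        rw [zero_mul, add_zero] at h0
        have := det_toPlace v h hdet
        simp [show toPlace v (h.val 0 0) = 0 from h1,
          show toPlace v (h.val 1 0) = 0 from h0] at this
    · intro h0
      rw [zero_mul, add_zero] at h0
      rw [h0, zero_add] at h2
      exact h1 (Or.inr h2)
    · rwa [one_mul]
  · refine (((finite_placeVal a).union (finite_placeVal b)).union
      ((finite_placeVal c).union (finite_placeVal d))).subset fun v hv => ?_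
    by_contra hcon
    simp only [Set.mem_union, Set.mem_ofPred_eq, not_or, not_lt] at hcon
    obtain ⟨⟨ha, hb⟩, hc, hd⟩ := hcon
    refine hv ?_
    rw [placeVal, map_add, map_mul, toPlace_adeleOf]
    simp only [f]
    by_cases hc1 : Valued.v (toPlace v c) = 1
    · rw [if_pos (Or.inl hc1), zero_mul, add_zero, hc1]
    have hclt : Valued.v (toPlace v c) < 1 := lt_of_le_of_ne hc hc1
    have hbc : Valued.v (toPlace v b * toPlace v c) < 1 := by
      rw [map_mul]
      exact (mul_le_of_le_one_left' hb).trans_lt hclt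
    have had : Valued.v (toPlace v a * toPlace v d) = 1 := by
      rw [show toPlace v a * toPlace v d = 1 + toPlace v b * toPlace v c by
        linear_combination det_toPlace v h hdet]
      exact Valuation.map_one_add_of_lt _ hbc
    have ha1 : Valued.v (toPlace v a) = 1 := by
      refine le_antisymm ha ?_
      rw [← had, map_mul]
      exact mul_le_of_le_one_right' hd
    have hca : Valued.v (toPlace v c + toPlace v a) = 1 := by
      rw [Valuation.map_add_eq_of_lt_right _ (ha1.symm ▸ hclt), ha1]
    have hane : toPlace v a ≠ 0 := fun h0 => by simp [h0] at ha1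
    have hne : toPlace v c + toPlace v a ≠ 0 := fun h0 => by simp [h0] at hca
    rw [if_neg (by simp [hc1, hane]), if_neg hne, one_mul, hca]

/-- **Strong approximation** for `SL₂`. -/
theorem approx_of_det_eq_one (h : GLFin F) (hdet : h.val.det = 1) : Approx h := by
  obtain ⟨x, hx⟩ := exists_isUnit_shift h hdet
  set g := lowerUnip x * h with hg
  have hgdet : g.val.det = 1 := by
    rw [hg, Units.val_mul, Matrix.det_mul, hdet, lowerUnip_val, Matrix.det_fin_two]; simp
  have hg10 : g.val 1 0 = h.val 1 0 + x * h.val 0 0 := by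
    rw [hg, Units.val_mul, lowerUnip_val]
    simp [Matrix.mul_apply, Fin.sum_univ_two, add_comm]
  obtain ⟨c, hc⟩ := hx
  rw [← hg10] at hc
  have e : g = unip ((g.val 0 0 - 1) * (↑c⁻¹ : FinAdele F)) * (lowerUnip (c : FinAdele F) *
      (unip ((g.val 1 1 - 1) * (↑c⁻¹ : FinAdele F)) * 1)) := by
    rw [mul_one]
    apply Units.ext
    simp only [Units.val_mul, lowerUnip_val]
    have hd := hgdet
    rw [Matrix.det_fin_two, ← hc] at hd
    have hci : (c : FinAdele F) * (↑c⁻¹ : FinAdele F) = 1 := c.mul_inv
    ext i j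
    fin_cases i <;> fin_cases j <;> simp [unip, Matrix.mul_apply, Fin.sum_univ_two, ← hc]
    · linear_combination (-(g.val 0 0 * g.val 1 1 - g.val 0 0 - g.val 1 1 + 1)
          * (↑c⁻¹ : FinAdele F)) * hci
        - (↑c⁻¹ : FinAdele F) * hd - g.val 0 1 * hci
    · linear_combination (-(g.val 1 1 - 1)) * hci
  have hga : Approx g := by
    rw [e]
    exact ((approx_one.unip_mul _).lowerUnip_mul _).unip_mul _
  have : h = lowerUnip (-x) * g := by
    rw [hg, ← mul_assoc]
    have h1 : lowerUnip (-x) * lowerUnip x = 1 := by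
      apply Units.ext
      rw [Units.val_mul, lowerUnip_val, lowerUnip_val]
      ext i j
      fin_cases i <;> fin_cases j <;> simp [Matrix.mul_apply, Fin.sum_univ_two]
    rw [h1, one_mul]
  rw [this]
  exact hga.lowerUnip_mul _

omit [NumberField F] in
theorem det_dia {R : Type*} [CommRing R] (a : Rˣ) :
    Matrix.GeneralLinearGroup.det (dia a) = a := by
  apply Units.ext
  show Matrix.det !![(a : R), 0; 0, 1] = (a : R)
  rw [Matrix.det_fin_two_of]
  ring

omit [NumberField F] in
theorem exists_eq_mul_dia {R : Type*} [CommRing R] (g : GL (Fin 2) R) :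
    ∃ (a : Rˣ) (h : GL (Fin 2) R), h.val.det = 1 ∧ g = h * dia a := by
  refine ⟨Matrix.GeneralLinearGroup.det g, g * (dia (Matrix.GeneralLinearGroup.det g))⁻¹, ?_,
    by group⟩
  refine congrArg Units.val (?_ : Matrix.GeneralLinearGroup.det _ = 1)
  rw [map_mul, map_inv, det_dia, mul_inv_cancel]

/-- **Representatives**: every coset is `γ • dia a`. -/
theorem exists_dia_repr (U : Level F) (c : GLFin F ⧸ U.toSubgroup) :
    ∃ (γ : GL (Fin 2) F) (a : (FinAdele F)ˣ),
      c = glIncl F γ • (QuotientGroup.mk (dia a) : GLFin F ⧸ U.toSubgroup) := by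
  induction c using QuotientGroup.induction_on with
  | H g =>
  obtain ⟨N, hN, hU⟩ := U.exists_principal
  obtain ⟨a, h, hdet, rfl⟩ := exists_eq_mul_dia g
  obtain ⟨M, hM, hconj⟩ := exists_conj_principal (F := F) (dia (R := FinAdele F) a) hN
  obtain ⟨γ, hγ⟩ := approx_of_det_eq_one h hdet M hM
  refine ⟨γ, a, ?_⟩
  show QuotientGroup.mk (h * dia a) = QuotientGroup.mk (glIncl F γ * dia a)
  rw [eq_comm, QuotientGroup.eq]
  have := hU _ (hconj _ hγ)
  convert this using 1
  group

end Fermat.Agent.LT.Rigidity

end
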