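import Fermat.Agent.LT.Rigidity.Mix

/-!
# Invariance of a function on ideles under a field automorphism, from local hypotheses

`Q` is the set of tame places (fixed by `σ`), `R` the set of places with a one-shell function.
At the other places only the order matters, and at those moved by `σ` the function is
multiplicative with the same factor at conjugate places.
-/

set_option autoImplicit false

noncomputable section

open WithZero
open scoped NumberField

namespace Fermat.Agent.LT.Rigidity

open Places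

variable {F : Type*} [Field F] [NumberField F]

/-- The local hypotheses. -/
structure IsLocallyRigid (σ : F ≃+* F) (f : (FinAdele F)ˣ → ℂ) (Q R : Finset (FinPlace F))
    (g : (FinAdele F)ˣ) (s : ℂ) (c : FinPlace F → ℤ → ℂ) : Prop where
  fixed : ∀ v ∈ Q, placeEquiv σ v = v
  stable : ∀ v, placeEquiv σ v ∈ R ↔ v ∈ R
  disjoint : Disjoint Q R
  unit : ∀ a u : (FinAdele F)ˣ, (∀ v, placeVal v (u : FinAdele F) = 1) →
    (∀ v, v ∈ Q ∨ v ∈ R → toPlace v (u : FinAdele F) = 1) → f (a * u) = f a
  tame : ∀ v ∈ Q, ∀ a : (FinAdele F)ˣ, f (mix {v} a (idelMap σ a)) = f a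
  g_fixed : idelMap σ g = g
  shell : ∀ v ∈ R, ∀ a : (FinAdele F)ˣ,
    placeVal v (a : FinAdele F) ≠ placeVal v (g : FinAdele F) → f a = 0
  residue : ∀ v ∈ R, ∀ a : (FinAdele F)ˣ, placeVal v (a : FinAdele F) = 1 →
    placeVal v ((a : FinAdele F) - 1) < 1 ∨ placeVal v ((a : FinAdele F) + 1) < 1
  near : ∀ v ∈ R, ∀ a e : (FinAdele F)ˣ, placeVal v ((e : FinAdele F) - 1) < 1 →
    (∀ w, w ≠ v → toPlace w (e : FinAdele F) = 1) → f (a * e) = f a
  flip : ∀ v ∈ R, ∀ a e : (FinAdele F)ˣ, placeVal v ((e : FinAdele F) + 1) < 1 →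
    (∀ w, w ≠ v → toPlace w (e : FinAdele F) = 1) → f (a * e) = s * f a
  split : ∀ v, v ∉ Q → v ∉ R → placeEquiv σ v ≠ v → ∀ (a : (FinAdele F)ˣ) (k : ℤ),
    placeVal v (a : FinAdele F) = 1 → f (a * piUnit v ^ k) = c v k * f a
  c_stable : ∀ v, v ∉ Q → v ∉ R → placeEquiv σ v ≠ v → ∀ k, c (placeEquiv σ v) k = c v k

variable {σ : F ≃+* F} {f : (FinAdele F)ˣ → ℂ} {Q R : Finset (FinPlace F)}
  {g : (FinAdele F)ˣ} {s : ℂ} {c : FinPlace F → ℤ → ℂ}

open Classical in
/-- The places of `R` where `a / g` is congruent to `-1`. -/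
def negSet (R : Finset (FinPlace F)) (g a : (FinAdele F)ˣ) : Finset (FinPlace F) :=
  R.filter fun v => placeVal v (((a * g⁻¹ : (FinAdele F)ˣ) : FinAdele F) + 1) < 1

namespace IsLocallyRigid

variable (h : IsLocallyRigid σ f Q R g s c)
include h

open Classical in
theorem eval_R (a : (FinAdele F)ˣ)
    (hshell : ∀ v ∈ R, placeVal v (a : FinAdele F) = placeVal v (g : FinAdele F)) :
    f a = s ^ (negSet R g a).card * f (mix R a g) := by
  suffices H : ∀ T, T ⊆ R → f a = s ^ ((negSet R g a) ∩ T).card * f (mix T a g) by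
    have := H R subset_rfl
    rwa [Finset.inter_eq_left.mpr (show negSet R g a ⊆ R from Finset.filter_subset _ _)] at this
  intro T
  induction T using Finset.induction_on with
  | empty => intro _; simp [mix_empty]
  | insert v T hv ih =>
    intro hT
    have hvR : v ∈ R := hT (Finset.mem_insert_self v T)
    rw [ih fun w hw => hT (Finset.mem_insert_of_mem hw), mix_insert hv]
    set b := mix {v} (mix T a g) g with hb
    set e := b⁻¹ * mix T a g with he
    have hbv : toPlace v (b : FinAdele F) = toPlace v (g : FinAdele F) :=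
      toPlace_mix_of_mem (by simp) _ _
    have hev : toPlace v (e : FinAdele F) = toPlace v ((a * g⁻¹ : (FinAdele F)ˣ) : FinAdele F) := by
      have hbg : toPlace v ((b⁻¹ : (FinAdele F)ˣ) : FinAdele F)
          = toPlace v ((g⁻¹ : (FinAdele F)ˣ) : FinAdele F) := by
        show ((Units.map (toPlace v).toRingHom.toMonoidHom b⁻¹ :
          (v.adicCompletion F)ˣ) : v.adicCompletion F) = _
        rw [map_inv, show Units.map (toPlace v).toRingHom.toMonoidHom b =
          Units.map (toPlace v).toRingHom.toMonoidHom g from Units.ext hbv, ← map_inv]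
        rfl
      rw [he, Units.val_mul, map_mul, hbg, toPlace_mix_of_notMem hv, Units.val_mul, map_mul,
        mul_comm]
    have hew : ∀ w, w ≠ v → toPlace w (e : FinAdele F) = 1 := fun w hw => by
      have : toPlace w (b : FinAdele F) = toPlace w (mix T a g : FinAdele F) :=
        toPlace_mix_of_notMem (by simpa using hw) _ _
      rw [he, Units.val_mul, map_mul, ← this, ← map_mul, Units.inv_mul, map_one]
    have hmul : mix T a g = b * e := by rw [he, mul_inv_cancel_left]
    have hval : placeVal v ((a * g⁻¹ : (FinAdele F)ˣ) : FinAdele F) = 1 := by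
      rw [Units.val_mul, placeVal_mul, placeVal_units_inv, hshell v hvR]
      exact mul_inv_cancel₀ (placeVal_units_ne_zero v g)
    have e1 : placeVal v ((e : FinAdele F) + 1)
        = placeVal v (((a * g⁻¹ : (FinAdele F)ˣ) : FinAdele F) + 1) := by
      rw [placeVal, placeVal, map_add (toPlace v), map_add (toPlace v), hev]
    have e2 : placeVal v ((e : FinAdele F) - 1)
        = placeVal v (((a * g⁻¹ : (FinAdele F)ˣ) : FinAdele F) - 1) := by
      rw [placeVal, placeVal, map_sub (toPlace v), map_sub (toPlace v), hev]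
    rw [hmul]
    by_cases hneg : v ∈ negSet R g a
    · have hlt := (Finset.mem_filter.mp hneg).2
      rw [h.flip v hvR b e (e1 ▸ hlt) hew, Finset.inter_insert_of_mem hneg,
        Finset.card_insert_of_notMem (fun hm => hv (Finset.mem_inter.mp hm).2), pow_succ]
      ring
    · rcases h.residue v hvR _ hval with h1 | h1
      · rw [h.near v hvR b e (e2 ▸ h1) hew, Finset.inter_insert_of_notMem hneg]
      · exact absurd (Finset.mem_filter.mpr ⟨hvR, h1⟩) hneg

theorem negSet_idelMap (a : (FinAdele F)ˣ) :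
    (negSet R g (idelMap σ a)).card = (negSet R g a).card := by
  classical
  refine Finset.card_equiv (placeEquiv σ) fun v => ?_
  simp only [negSet, Finset.mem_filter, h.stable]
  refine and_congr Iff.rfl ?_
  have : ((idelMap σ a * g⁻¹ : (FinAdele F)ˣ) : FinAdele F) + 1 =
      finMap (σ : F →+* F) (((a * g⁻¹ : (FinAdele F)ˣ) : FinAdele F) + 1) := by
    conv_lhs => rw [← h.g_fixed, ← map_inv, ← map_mul, idelMap_val]
    rw [map_add, map_one]
  rw [this, placeVal_finMap, placeEquiv_apply]

theorem eval_split (S : Finset (FinPlace F))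
    (hS : ∀ v ∈ S, v ∉ Q ∧ v ∉ R ∧ placeEquiv σ v ≠ v) (a : (FinAdele F)ˣ) :
    f a = (∏ v ∈ S, c v (ord v a).toAdd) * f (mix S a 1) := by
  classical
  induction S using Finset.induction_on with
  | empty => simp [mix_empty]
  | insert v S hv ih =>
    obtain ⟨hQ, hR, hσ⟩ := hS v (Finset.mem_insert_self v S)
    rw [ih fun w hw => hS w (Finset.mem_insert_of_mem hw), Finset.prod_insert hv, mix_insert hv]
    set x := mix S a 1 with hx
    set b := mix {v} x 1 with hb
    set k := (ord v a).toAdd
    have hxv : toPlace v (x : FinAdele F) = toPlace v (a : FinAdele F) :=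
      toPlace_mix_of_notMem hv _ _
    have hbv : toPlace v (b : FinAdele F) = 1 := by
      rw [hb, toPlace_mix_of_mem (by simp), Units.val_one, map_one]
    have hxval : placeVal v (x : FinAdele F) = exp (-k) := by
      rw [placeVal, hxv]
      exact placeVal_eq_exp_ord v a
    have hpk : ∀ w, placeVal w ((piUnit v ^ k : (FinAdele F)ˣ) : FinAdele F)
        = exp (-(ord w (piUnit v ^ k)).toAdd) := fun w => placeVal_eq_exp_ord w _
    set u := (b * piUnit v ^ k)⁻¹ * x with hu
    have hu1 : ∀ w, w ≠ v → toPlace w (u : FinAdele F) = 1 := fun w hw => by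
      have h1 : toPlace w ((b * piUnit v ^ k : (FinAdele F)ˣ) : FinAdele F)
          = toPlace w (x : FinAdele F) := by
        rw [Units.val_mul, map_mul, hb, toPlace_mix_of_notMem (by simpa using hw)]
        have : toPlace w ((piUnit v ^ k : (FinAdele F)ˣ) : FinAdele F) = 1 := by
          show ((Units.map (toPlace w).toRingHom.toMonoidHom (piUnit v ^ k) :
            (w.adicCompletion F)ˣ) : w.adicCompletion F) = 1
          rw [map_zpow, show Units.map (toPlace w).toRingHom.toMonoidHom (piUnit v) = 1 from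
            Units.ext (toPlace_piUnit_ne hw), one_zpow]
          rfl
        rw [this, mul_one]
      rw [hu, Units.val_mul, map_mul, ← h1, ← map_mul, Units.inv_mul, map_one]
    have hu2 : ∀ w, placeVal w (u : FinAdele F) = 1 := fun w => by
      rcases eq_or_ne w v with rfl | hw
      · rw [hu, Units.val_mul, placeVal_mul, placeVal_units_inv, Units.val_mul, placeVal_mul,
          hpk, map_zpow, ord_piUnit_same, hxval, placeVal, hbv, map_one, one_mul]
        simp [exp_ne_zero]
      · rw [placeVal, hu1 w hw, map_one]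
    have hxeq : x = b * piUnit v ^ k * u := by rw [hu, mul_inv_cancel_left]
    have hfx : f x = c v k * f b := by
      rw [hxeq, h.unit _ u hu2 fun w hw => hu1 w fun e => by
          rcases hw with hw | hw
          · exact hQ (e ▸ hw)
          · exact hR (e ▸ hw),
        h.split v hQ hR hσ b k (by rw [placeVal, hbv, map_one])]
    rw [hfx]
    ring

theorem split_idelMap (S : Finset (FinPlace F))
    (hS : ∀ v ∈ S, v ∉ Q ∧ v ∉ R ∧ placeEquiv σ v ≠ v)
    (hstab : ∀ v, placeEquiv σ v ∈ S ↔ v ∈ S) (a : (FinAdele F)ˣ) :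
    ∏ v ∈ S, c v (ord v (idelMap σ a)).toAdd = ∏ v ∈ S, c v (ord v a).toAdd := by
  refine Finset.prod_equiv (placeEquiv σ) (fun v => (hstab v).symm) fun v hv => ?_
  obtain ⟨hQ, hR, hσ⟩ := hS v hv
  rw [ord_idelMap, h.c_stable v hQ hR hσ]

theorem eval_Q (a : (FinAdele F)ˣ) : f (mix Q a (idelMap σ a)) = f a := by
  classical
  suffices H : ∀ T, T ⊆ Q → f (mix T a (idelMap σ a)) = f a from H Q subset_rfl
  intro T
  induction T using Finset.induction_on with
  | empty => intro _; rw [mix_empty]
  | insert v T hv ih =>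
    intro hT
    have hvQ : v ∈ Q := hT (Finset.mem_insert_self v T)
    have hloc : toPlace v (idelMap σ (mix T a (idelMap σ a)) : FinAdele F)
        = toPlace v (idelMap σ a : FinAdele F) := by
      rw [idelMap_val, idelMap_val]
      refine toPlace_finMap_congr σ v ?_
      rw [h.fixed v hvQ, toPlace_mix_of_notMem hv]
    have he : mix {v} (mix T a (idelMap σ a)) (idelMap σ (mix T a (idelMap σ a)))
        = mix (insert v T) a (idelMap σ a) := units_ext fun w => by
      rw [mix_insert hv]
      rcases eq_or_ne w v with rfl | hw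
      · rw [toPlace_mix_of_mem (by simp), toPlace_mix_of_mem (by simp), hloc]
      · rw [toPlace_mix_of_notMem (S := {v}) (by simpa using hw),
          toPlace_mix_of_notMem (S := {v}) (by simpa using hw)]
    rw [← he, h.tame v hvQ, ih fun w hw => hT (Finset.mem_insert_of_mem hw)]

/-- **Invariance.** -/
theorem eq_idelMap (hσ : ∀ v, placeEquiv σ (placeEquiv σ (placeEquiv σ v)) = v)
    (a : (FinAdele F)ˣ) : f (idelMap σ a) = f a := by
  classical
  by_cases hshell : ∀ v ∈ R, placeVal v (a : FinAdele F) = placeVal v (g : FinAdele F)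
  swap
  · push Not at hshell
    obtain ⟨v, hv, hne⟩ := hshell
    set w := (placeEquiv σ).symm v
    have hw : placeEquiv σ w = v := (placeEquiv σ).apply_symm_apply v
    rw [h.shell v hv a hne, h.shell w ((h.stable w).mp (hw ▸ hv))]
    rw [placeVal_idelMap, hw]
    conv_rhs => rw [← h.g_fixed, placeVal_idelMap, hw]
    exact hne
  have hshell' : ∀ v ∈ R,
      placeVal v (idelMap σ a : FinAdele F) = placeVal v (g : FinAdele F) := fun v hv => by
    rw [placeVal_idelMap, hshell _ ((h.stable v).mpr hv)]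
    conv_rhs => rw [← h.g_fixed, placeVal_idelMap]
  rw [h.eval_R a hshell, h.eval_R _ hshell', h.negSet_idelMap]
  congr 1
  set a₁ := mix R a g with ha₁
  rw [show mix R (idelMap σ a) g = idelMap σ a₁ by rw [ha₁, idelMap_mix σ h.stable, h.g_fixed]]
  -- the places with nontrivial order, closed under `σ`
  set S₀ := (finite_placeVal_units a₁).toFinset with hS₀
  set P := S₀ ∪ S₀.image (placeEquiv σ) ∪ S₀.image (fun v => placeEquiv σ (placeEquiv σ v))
    with hP
  set S := P.filter fun v => v ∉ Q ∧ v ∉ R ∧ placeEquiv σ v ≠ v with hSdef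
  have hPclosed : ∀ v ∈ P, placeEquiv σ v ∈ P := by
    intro v hv
    simp only [hP, Finset.mem_union, Finset.mem_image] at hv ⊢
    rcases hv with (hv | ⟨u, hu, rfl⟩) | ⟨u, hu, rfl⟩
    · exact Or.inl (Or.inr ⟨v, hv, rfl⟩)
    · exact Or.inr ⟨u, hu, rfl⟩
    · exact Or.inl (Or.inl (by rwa [hσ]))
  have hPiff : ∀ v, placeEquiv σ v ∈ P ↔ v ∈ P := fun v =>
    ⟨fun hv => hσ v ▸ hPclosed _ (hPclosed _ hv), hPclosed v⟩
  have hstab : ∀ v, placeEquiv σ v ∈ S ↔ v ∈ S := fun v => by
    simp only [hSdef, Finset.mem_filter, hPiff, h.stable, (placeEquiv σ).injective.ne_iff]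
    refine ⟨fun ⟨hp, hq, hr, hne⟩ => ⟨hp, fun hvQ => hq ?_, hr, hne⟩,
      fun ⟨hp, hq, hr, hne⟩ => ⟨hp, fun hvQ => hne ?_, hr, hne⟩⟩
    · rw [h.fixed v hvQ]; exact hvQ
    · exact (placeEquiv σ).injective (h.fixed _ hvQ)
  have hSprop : ∀ v ∈ S, v ∉ Q ∧ v ∉ R ∧ placeEquiv σ v ≠ v :=
    fun v hv => (Finset.mem_filter.mp hv).2
  rw [h.eval_split S hSprop (idelMap σ a₁), h.eval_split S hSprop a₁,
    h.split_idelMap S hSprop hstab]
  congr 1
  set a₂ := mix S a₁ 1 with ha₂
  rw [show mix S (idelMap σ a₁) 1 = idelMap σ a₂ by rw [ha₂, idelMap_mix σ hstab, map_one],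
    ← h.eval_Q a₂]
  set a₃ := mix Q a₂ (idelMap σ a₂)
  set u := a₃⁻¹ * idelMap σ a₂ with hu
  rw [show idelMap σ a₂ = a₃ * u by rw [hu, mul_inv_cancel_left]]
  have htop : ∀ v, toPlace v (a₃ : FinAdele F) = toPlace v (idelMap σ a₂ : FinAdele F) →
      toPlace v (u : FinAdele F) = 1 := fun v hv => by
    rw [hu, Units.val_mul, map_mul, ← hv, ← map_mul, Units.inv_mul, map_one]
  have hR₂ : ∀ v ∈ R, toPlace v (a₂ : FinAdele F) = toPlace v (g : FinAdele F) := fun v hv => by
    rw [ha₂, toPlace_mix_of_notMem (fun hS => (hSprop v hS).2.1 hv), ha₁, toPlace_mix_of_mem hv]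
  have hRQ : ∀ v, v ∈ Q ∨ v ∈ R →
      toPlace v (a₃ : FinAdele F) = toPlace v (idelMap σ a₂ : FinAdele F) := by
    rintro v (hv | hv)
    · exact toPlace_mix_of_mem hv _ _
    · rw [toPlace_mix_of_notMem (Finset.disjoint_right.mp h.disjoint hv), hR₂ v hv]
      conv_lhs => rw [← h.g_fixed]
      exact (toPlace_finMap_congr σ v (hR₂ _ ((h.stable v).mpr hv))).symm
  refine h.unit a₃ u (fun v => ?_) fun v hv => htop v (hRQ v hv)
  by_cases hv : v ∈ Q ∨ v ∈ R
  · rw [placeVal, htop v (hRQ v hv), map_one]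
  push Not at hv
  have hkey : placeVal v (idelMap σ a₂ : FinAdele F) = placeVal v (a₃ : FinAdele F) := by
    rw [placeVal_idelMap, show placeVal v (a₃ : FinAdele F) = placeVal v (a₂ : FinAdele F) by
      rw [placeVal, placeVal, toPlace_mix_of_notMem hv.1]]
    by_cases hne : placeEquiv σ v = v
    · rw [hne]
    have hout : ∀ w, w ∉ Q → w ∉ R → placeEquiv σ w ≠ w →
        placeVal w (a₂ : FinAdele F) = 1 := by
      intro w hwQ hwR hwne
      by_cases hwS : w ∈ S
      · rw [placeVal, ha₂, toPlace_mix_of_mem hwS, Units.val_one, map_one, map_one]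
      · rw [placeVal, ha₂, toPlace_mix_of_notMem hwS]
        by_contra hw1
        refine hwS (Finset.mem_filter.mpr ⟨?_, hwQ, hwR, hwne⟩)
        simp only [hP, Finset.mem_union]
        exact Or.inl (Or.inl ((finite_placeVal_units a₁).mem_toFinset.mpr hw1))
    have hne' : placeEquiv σ (placeEquiv σ v) ≠ placeEquiv σ v :=
      fun e => hne ((placeEquiv σ).injective e)
    have hQ' : placeEquiv σ v ∉ Q := fun e => hne' (h.fixed _ e)
    rw [hout _ hQ' (fun e => hv.2 ((h.stable v).mp e)) hne', hout v hv.1 hv.2 hne]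
  rw [hu, Units.val_mul, placeVal_mul, placeVal_units_inv, ← hkey]
  exact inv_mul_cancel₀ (placeVal_units_ne_zero v _)

end IsLocallyRigid

end Fermat.Agent.LT.Rigidity

end
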