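import Fermat.Agent.LT.Rigidity.Injective
import Fermat.Agent.LT.Rigidity.Local
import Fermat.Agent.LT.Whittaker.Local
import Fermat.Agent.LT.Places.CosetList
import Fermat.Agent.LT.Setup.IdealLevel

/-!
# The local hypotheses at the good places

At level `ofIdeal I`: units trivial at the places dividing `I` fix every diagonal coset, and an
eigenfunction of the Hecke operator at a good place has multiplicative Whittaker values there.
-/

set_option autoImplicit false

noncomputable section

open WithZero IsDedekindDomain
open scoped NumberField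

namespace Fermat.Agent.LT.Rigidity

open Places Whittaker

variable {F : Type*} [Field F] [NumberField F]

/-- The component at a place of the inverse idele. -/
theorem toPlace_units_inv' (v : FinPlace F) (x : (FinAdele F)ˣ) :
    toPlace v ((x⁻¹ : (FinAdele F)ˣ) : FinAdele F) = (toPlace v (x : FinAdele F))⁻¹ := by
  refine eq_inv_of_mul_eq_one_left ?_
  rw [← map_mul, Units.inv_mul, map_one]

/-- An idele trivial at the places of `I` and a unit everywhere gives an element of the level. -/
theorem dia_mem_ofIdeal {I : Ideal (𝓞 F)} {hI : ∃ N : ℕ, 0 < N ∧ (N : 𝓞 F) ∈ I}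
    (u : (FinAdele F)ˣ) (hu : ∀ v, placeVal v (u : FinAdele F) = 1)
    (hI1 : ∀ v : FinPlace F, I ≤ v.asIdeal → toPlace v (u : FinAdele F) = 1) :
    dia u ∈ (Level.ofIdeal F I hI).toSubgroup := by
  obtain ⟨N, hN, hNI⟩ := id hI
  have hint : ((u : FinAdele F) ∈ integralAdele F) ∧
      ((u⁻¹ : (FinAdele F)ˣ) : FinAdele F) ∈ integralAdele F := mem_integralUnits_iff.mpr hu
  refine ⟨1, dia u, ⟨?_, ?_⟩, by simp⟩
  · intro i j
    refine ⟨(dia u : GLFin F).val i j - (1 : Matrix (Fin 2) (Fin 2) (FinAdele F)) i j, ?_,
      ((dia u : GLFin F)⁻¹).val i j - (1 : Matrix (Fin 2) (Fin 2) (FinAdele F)) i j, ?_,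
      by simp, by simp⟩
    · fin_cases i <;> fin_cases j <;>
        simp [dia, sub_mem hint.1 (one_mem _), zero_mem]
    · show ((dia u : GLFin F).inv i j) - _ ∈ _
      fin_cases i <;> fin_cases j <;>
        simp [dia, sub_mem hint.2 (one_mem _), zero_mem]
  have key : ((u : FinAdele F) - 1) ∈ idealAdele F I := by
    classical
    set S := (finite_natCast (F := F) N hN).toFinset.filter fun v => ¬ I ≤ v.asIdeal with hS
    have hsingle : ∀ v ∈ S, single v (toPlace v ((u : FinAdele F) - 1)) ∈ idealAdele F I := by
      intro v hv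
      obtain ⟨c, hcI, hcv⟩ := SetLike.not_le_iff_exists.1 (Finset.mem_filter.mp hv).2
      have hc : v.valuation F (c : F) = 1 := by
        rw [NumberField.RingOfIntegers.coe_eq_algebraMap,
          HeightOneSpectrum.valuation_eq_one_iff_notMem]
        exact hcv
      have hc' : Valued.v (algebraMap F (v.adicCompletion F) (c : F)) = 1 :=
        (HeightOneSpectrum.valuedAdicCompletion_eq_valuation' v _).trans hc
      have hc0 : algebraMap F (v.adicCompletion F) (c : F) ≠ 0 :=
        fun h0 => by rw [h0, map_zero] at hc'; exact zero_ne_one hc'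
      refine AddSubgroup.subset_closure ⟨c, hcI, single v ((algebraMap F _ (c : F))⁻¹ *
        toPlace v ((u : FinAdele F) - 1)), single_mem_integralAdele ?_, ext_toPlace fun w => ?_⟩
      · rw [map_mul, map_inv₀, hc', inv_one, one_mul, map_sub, map_one]
        exact (Valued.v.map_sub _ _).trans (max_le (hu v).le (le_of_eq (map_one _)))
      · rw [map_mul, toPlace_finIncl]
        rcases eq_or_ne w v with rfl | hw
        · rw [toPlace_single_same, toPlace_single_same, mul_inv_cancel_left₀ hc0]
        · rw [toPlace_single_ne hw, toPlace_single_ne hw, mul_zero]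
    have hrest : ((u : FinAdele F) - 1) - ∑ v ∈ S, single v (toPlace v ((u : FinAdele F) - 1))
        ∈ idealAdele F I := by
      obtain ⟨z, hz, hz'⟩ := exists_mul_of_placeVal_le (N := N) hN
        (x := ((u : FinAdele F) - 1) - ∑ v ∈ S, single v (toPlace v ((u : FinAdele F) - 1)))
        (sub_mem (sub_mem hint.1 (one_mem _)) (sum_mem fun v _ => single_mem_integralAdele
          ((map_sub (toPlace v) _ _ ▸ (Valued.v.map_sub _ _).trans
            (max_le (hu v).le (by rw [map_one, map_one])))))) fun w => by
          show Valued.v (toPlace w _) ≤ _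
          rw [map_sub, map_sum]
          by_cases hwS : w ∈ S
          · rw [Finset.sum_eq_single w (fun v _ hv => toPlace_single_ne hv.symm _)
              (fun h => absurd hwS h), toPlace_single_same, sub_self, map_zero]
            exact zero_le
          · rw [Finset.sum_eq_zero fun v hv => toPlace_single_ne
              (fun e : w = v => hwS (by rw [e]; exact hv)) _,
              sub_zero, map_sub, map_one]
            by_cases hwI : I ≤ w.asIdeal
            · rw [hI1 w hwI, sub_self, map_zero]
              exact zero_le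
            · have hwN : w.valuation F (N : F) = 1 := by
                refine le_antisymm (valuation_natCast_le_one w N) (not_lt.1 fun hlt => hwS ?_)
                exact Finset.mem_filter.mpr
                  ⟨(finite_natCast (F := F) N hN).mem_toFinset.mpr hlt.ne, hwI⟩
              rw [hwN]
              exact (Valued.v.map_sub _ _).trans (max_le (hu w).le (le_of_eq (map_one _)))
      rw [hz']
      exact natCast_mul_mem_idealAdele hNI hz
    simpa using add_mem hrest (sum_mem hsingle)
  intro i j
  fin_cases i <;> fin_cases j <;> simp [dia, key, zero_mem]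

/-- Units trivial at the places of `I` do not move the diagonal cosets. -/
theorem diaCoset_mul_unit {I : Ideal (𝓞 F)} {hI : ∃ N : ℕ, 0 < N ∧ (N : 𝓞 F) ∈ I}
    (a u : (FinAdele F)ˣ) (hu : ∀ v, placeVal v (u : FinAdele F) = 1)
    (hI1 : ∀ v : FinPlace F, I ≤ v.asIdeal → toPlace v (u : FinAdele F) = 1) :
    diaCoset (Level.ofIdeal F I hI) (a * u) = diaCoset (Level.ofIdeal F I hI) a := by
  show QuotientGroup.mk (dia (a * u)) = QuotientGroup.mk (dia a)
  rw [dia_mul, QuotientGroup.eq]
  simpa using inv_mem (dia_mem_ofIdeal (hI := hI) u hu hI1)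

variable [NumberField.IsTotallyComplex F] {U : Level F} {φ : Y U → ℂ}

/-- The Whittaker factor at a good place. -/
def goodFactor (q lam : ℂ) : ℤ → ℂ
  | Int.ofNat k => heckeCoeff q lam k
  | Int.negSucc _ => 0

/-- **Multiplicativity at one good place.** -/
theorem whit_diaCoset_piUnit (hφ : IsCuspEigen φ) (v : FinPlace F) (hU : IsGoodAt U v)
    (hdiff : ¬ differentIdeal ℤ (𝓞 F) ≤ v.asIdeal) {lam : ℂ}
    (heig : ∀ y, doubleOp (diagIdele F (piUnit v)) φ y = lam * φ y)
    (a : (FinAdele F)ˣ) (ha : placeVal v (a : FinAdele F) = 1) (k : ℤ) :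
    whit φ (diaCoset U (a * piUnit v ^ k)) =
      goodFactor (Nat.card (Residue v)) lam k * whit φ (diaCoset U a) := by
  have hone : dia (piUnit v * (piUnit v)⁻¹) ∈ U.toSubgroup := by
    rw [mul_inv_cancel, dia_one]; exact one_mem _
  have hbase : ∀ b : (FinAdele F)ˣ,
      dia b • (((1 : GLFin F)) : GLFin F ⧸ U.toSubgroup) = diaCoset U b := fun b => by
    show QuotientGroup.mk (dia b * 1) = _
    rw [mul_one]; rfl
  have hvan : ∀ b : (FinAdele F)ˣ, 1 < placeVal v (b : FinAdele F) →
      whit φ (diaCoset U b) = 0 := fun b hb => by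
    rw [← hbase]
    exact whit_eq_zero_of_one_lt hφ v hdiff
      (fun x hx => unip_single_smul hU (by rw [map_one]; exact one_mem _) hx) b hb
  have hpi : ∀ n : ℤ, placeVal v ((piUnit v ^ n : (FinAdele F)ˣ) : FinAdele F) = exp (-n) := by
    intro n
    rw [placeVal_eq_exp_ord, map_zpow, ord_piUnit_same]
    simp
  match k with
  | Int.negSucc n =>
    rw [goodFactor, zero_mul]
    refine hvan _ ?_
    rw [Units.val_mul, placeVal_mul, ha, one_mul, hpi, ← exp_zero, exp_lt_exp]
    omega
  | Int.ofNat n =>
    have : Finite (Residue v) := Nat.finite_of_card_ne_zero (by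
      rw [card_residue, ne_eq, Ideal.absNorm_eq_zero_iff]; exact v.ne_bot)
    let _ := Fintype.ofFinite (Residue v)
    have : Nonempty (Residue v) := ⟨0⟩
    have h := whit_pow hφ (isCosetList_heckeRep hU hone) heig (g₀ := 1)
      (fun _ => Commute.one_left _) a (fun m i => psiFin_mul_single_of_le_one v (by
        rw [Units.val_mul, placeVal_mul, ha, one_mul, ← zpow_natCast, hpi, ← exp_zero, exp_le_exp]
        omega) (valued_resLift v i)) (by
        rw [hbase]
        refine hvan _ ?_
        rw [Units.val_mul, placeVal_mul, ha, one_mul, ← zpow_neg_one, hpi, ← exp_zero, exp_lt_exp]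
        omega) n
    rw [hbase, hbase, ← Nat.card_eq_fintype_card] at h
    rw [Int.ofNat_eq_natCast, zpow_natCast]
    exact h

end Fermat.Agent.LT.Rigidity

end
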