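import Fermat.Agent.LT.Places.Galois

/-!
# Replacing the components of an idele on a finite set of places

`mix S a b` has the components of `b` on `S` and those of `a` elsewhere; it commutes with the
field automorphisms when `S` is stable.
-/

set_option autoImplicit false

noncomputable section

open WithZero
open scoped NumberField

namespace Fermat.Agent.LT.Rigidity

open Places

variable {F : Type*} [Field F] [NumberField F]

/-- The idempotent of a finite set of places. -/
def idemSet (S : Finset (FinPlace F)) : FinAdele F := ∑ v ∈ S, idem v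

theorem toPlace_idemSet_of_mem {S : Finset (FinPlace F)} {v : FinPlace F} (h : v ∈ S) :
    toPlace v (idemSet S) = 1 := by
  rw [idemSet, map_sum, Finset.sum_eq_single v (fun w _ hw => toPlace_idem_ne hw.symm)
    (fun h' => absurd h h'), toPlace_idem_same]

theorem toPlace_idemSet_of_notMem {S : Finset (FinPlace F)} {v : FinPlace F} (h : v ∉ S) :
    toPlace v (idemSet S) = 0 := by
  rw [idemSet, map_sum]
  exact Finset.sum_eq_zero fun w hw => toPlace_idem_ne fun e => h (e ▸ hw)

theorem idemSet_mul_self (S : Finset (FinPlace F)) : idemSet S * idemSet S = idemSet S :=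
  ext_toPlace fun v => by
    by_cases h : v ∈ S
    · rw [map_mul, toPlace_idemSet_of_mem h, one_mul]
    · rw [map_mul, toPlace_idemSet_of_notMem h, zero_mul]

/-- The components of `b` on `S`, those of `a` elsewhere, for adeles. -/
def mixAdele (S : Finset (FinPlace F)) (a b : FinAdele F) : FinAdele F :=
  (1 - idemSet S) * a + idemSet S * b

theorem mixAdele_mul (S : Finset (FinPlace F)) (a b a' b' : FinAdele F) :
    mixAdele S a b * mixAdele S a' b' = mixAdele S (a * a') (b * b') := by
  have h := idemSet_mul_self S
  simp only [mixAdele]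
  linear_combination (a * a' + b * b' - a * b' - b * a') * h

theorem mixAdele_one (S : Finset (FinPlace F)) : mixAdele S 1 1 = 1 := by
  simp only [mixAdele]; ring

/-- The components of `b` on `S`, those of `a` elsewhere. -/
def mix (S : Finset (FinPlace F)) (a b : (FinAdele F)ˣ) : (FinAdele F)ˣ where
  val := mixAdele S a b
  inv := mixAdele S (↑a⁻¹) (↑b⁻¹)
  val_inv := by rw [mixAdele_mul, Units.mul_inv, Units.mul_inv, mixAdele_one]
  inv_val := by rw [mixAdele_mul, Units.inv_mul, Units.inv_mul, mixAdele_one]

/-- `mix` agrees with `b` on `S`. -/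
theorem toPlace_mix_of_mem {S : Finset (FinPlace F)} {v : FinPlace F} (h : v ∈ S)
    (a b : (FinAdele F)ˣ) : toPlace v (mix S a b : FinAdele F) = toPlace v (b : FinAdele F) := by
  show toPlace v (mixAdele S a b) = _
  simp [mixAdele, toPlace_idemSet_of_mem h]

/-- `mix` agrees with `a` outside `S`. -/
theorem toPlace_mix_of_notMem {S : Finset (FinPlace F)} {v : FinPlace F} (h : v ∉ S)
    (a b : (FinAdele F)ˣ) : toPlace v (mix S a b : FinAdele F) = toPlace v (a : FinAdele F) := by
  show toPlace v (mixAdele S a b) = _
  simp [mixAdele, toPlace_idemSet_of_notMem h]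

/-- Mixing along the empty set changes nothing. -/
theorem mix_empty (a b : (FinAdele F)ˣ) : mix ∅ a b = a :=
  units_ext fun v => toPlace_mix_of_notMem (by simp) a b

open Classical in
/-- Mixing one place at a time. -/
theorem mix_insert {S : Finset (FinPlace F)} {v : FinPlace F} (h : v ∉ S)
    (a b : (FinAdele F)ˣ) : mix (insert v S) a b = mix {v} (mix S a b) b :=
  units_ext fun w => by
    by_cases hw : w = v
    · subst hw
      rw [toPlace_mix_of_mem (Finset.mem_insert_self w S), toPlace_mix_of_mem (by simp)]
    · rw [toPlace_mix_of_notMem (S := {v}) (by simpa using hw)]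
      by_cases hS : w ∈ S
      · rw [toPlace_mix_of_mem (Finset.mem_insert_of_mem hS), toPlace_mix_of_mem hS]
      · rw [toPlace_mix_of_notMem (by simp [hw, hS]), toPlace_mix_of_notMem hS]

/-- The automorphism on ideles. -/
def idelMap (σ : F ≃+* F) : (FinAdele F)ˣ →* (FinAdele F)ˣ :=
  Units.map (finMap (σ : F →+* F)).toRingHom.toMonoidHom

omit [NumberField F] in
/-- The value of the action on ideles. -/
theorem idelMap_val (σ : F ≃+* F) (a : (FinAdele F)ˣ) :
    (idelMap σ a : FinAdele F) = finMap (σ : F →+* F) (a : FinAdele F) := rfl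

/-- The valuation of a conjugate idele. -/
theorem placeVal_idelMap (σ : F ≃+* F) (v : FinPlace F) (a : (FinAdele F)ˣ) :
    placeVal v (idelMap σ a : FinAdele F) = placeVal (placeEquiv σ v) (a : FinAdele F) :=
  placeVal_finMap σ v _

/-- The order of a conjugate idele. -/
theorem ord_idelMap (σ : F ≃+* F) (v : FinPlace F) (a : (FinAdele F)ˣ) :
    ord v (idelMap σ a) = ord (placeEquiv σ v) a :=
  Multiplicative.toAdd.injective (by
    have h := placeVal_idelMap σ v a
    rw [placeVal_eq_exp_ord, placeVal_eq_exp_ord, exp_inj, neg_inj] at h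
    exact h)

/-- The component of `σ a` at `v` depends only on the component of `a` at the permuted place. -/
theorem toPlace_finMap_congr (σ : F ≃+* F) (v : FinPlace F) {x y : FinAdele F}
    (h : toPlace (placeEquiv σ v) x = toPlace (placeEquiv σ v) y) :
    toPlace v (finMap (σ : F →+* F) x) = toPlace v (finMap (σ : F →+* F) y) := by
  have h1 : idem (placeEquiv σ v) * x = idem (placeEquiv σ v) * y := by
    rw [← single_toPlace, ← single_toPlace, h]
  have h2 := congrArg (fun z => toPlace v (finMap (σ : F →+* F) z)) h1
  simpa [placeEquiv_apply, finMap_idem, toPlace_idem_same] using h2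

theorem finMap_idemSet (σ : F ≃+* F) (S : Finset (FinPlace F))
    (hS : ∀ v, placeEquiv σ v ∈ S ↔ v ∈ S) : finMap (σ : F →+* F) (idemSet S) = idemSet S := by
  rw [idemSet, map_sum]
  refine (Finset.sum_equiv (placeEquiv σ) (fun v => (hS v).symm) fun v _ => ?_).symm
  rw [placeEquiv_apply, finMap_idem]

/-- `mix` over a stable set commutes with the action on ideles. -/
theorem idelMap_mix (σ : F ≃+* F) {S : Finset (FinPlace F)}
    (hS : ∀ v, placeEquiv σ v ∈ S ↔ v ∈ S) (a b : (FinAdele F)ˣ) :
    idelMap σ (mix S a b) = mix S (idelMap σ a) (idelMap σ b) := by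
  ext
  show finMap (σ : F →+* F) (mixAdele S a b) = mixAdele S _ _
  simp only [mixAdele, map_add, map_mul, map_sub, map_one, finMap_idemSet σ S hS]
  rfl

end Fermat.Agent.LT.Rigidity

end
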